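import Mathlib
import Fermat.Agent.LT.T7.H801.SupplyQConstrSpec
import Fermat.Agent.LT.T7.H893.SupplyProdSpec

/-!
# Row LT, tower T7, node T7.L2Q.1.H2b `CQ801.ProdMtQC801` (quadratic step `F = ℚ(√-3)` over `ℚ`):
# FIRST CUT (helper563, registry row 2683) -- Spec

OFF-MAIN.  Definitions and frozen Props only (the proved top is `ProdMtQTop.lean`).  No hole,
nothing assumed.  ADDITIVE (new names only, all suffixed `563`, namespace
`Fermat.Agent.LT.T7.PQ563`).  MIRROR over `ℚ` of the sixth cut of the cubic step,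
`T7/H893/SupplyProdSpec.lean` (helper893, sha256 21691ff19b22972e), on the relation of record
over `ℚ`, `T7/H801/SupplyQConstrSpec.lean` (helper801, sha256 d1e7dc69460eae43).  The leaves
`H893.LevelUniqC893`, `H893.LevelAtC893` of helper893 are USED AS THEY ARE (`K = ℚ`, `K' = F`).

    prodMtQC801_of563 : LevelUniqC893 ℚ → LevelUniqC893 F → LevelAtC893 ℚ F → UnramQC563 F
        → ProdShapeQC563 F → SphHypQC563 F
        → ∀ κ nowhere zero, CQ801.ProdMtQC801 F κ                             (VERBATIM)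

## The cut

* **`ProdShapeQC563 F`** (NODE, the CALCULUS; no matching theorem, no `κ`): for exponents
  `(T₀, n, n₀, m)` of the level and Haar measures `μr`, `μc` there are constants `c ≠ 0` (the
  constant of the Abel relation of the two triples) and `c₀ ≠ 0` such that for every `a ≠ 0`
  and all pre-data with the local shape for `(c, a)` the members are averages of pure tensors
  with constant `a * c₀` downstairs whose components satisfy `LocPQ563`: the local hypotheses
  `CQ801.LocHypQb801` AT THE PLACES OF THE LEVEL (`T₀`) and at infinity (`T6.IsArchMatch`), and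
  the spherical shape `SphOut893` outside the level.
* **`SphHypQC563 F`** (NODE, LOCAL, T6; mirror of `H893.SphHypC893`): the local hypotheses on
  `T₀` and the spherical shape on `T ∖ T₀` give the local hypotheses on `T`.
* **`UnramQC563 F`** (LEAF [S-M], algebraic number theory): every place of `F = ℚ(√-3)` outside
  `S'` is unramified over `ℚ` when `3 ∈ S` (the same statement as `CQ57.UnramQC57` of helper57,
  unfolded).
* `H893.LevelUniqC893 ℚ`, `H893.LevelUniqC893 F`, `H893.LevelAtC893 ℚ F`: the leaves of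
  helper893 (rows 2853, 2854), verbatim.

The top chooses `c` of the calculus node and `a = κ / c₀`.

FALSITY CHECKS (helper563).  (a) CONSTANTS: `c` is chosen BEFORE `a` and both before the
pre-data; `c` and `c₀` depend on `(B, g, 𝔫, μr, μc, T₀, n, n₀, m)` only.  The product of two
pairs in the Abel relation `c` is a pair in the Abel relation `e c²` (`e > 0` depends on the Haar
measures only), and a pair in the Abel relation `c_w` of the wiring `T3.H830.archWire830` is
matched (`T6.IsArchMatch`): `c` is a square root of `c_w / e`.  The constant `a` of the second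
triple multiplies the members downstairs only.  (b) At the bad places (`v ∈ T₀`, `v ≠ u`,
including the ramified prime `3`) the components of the product are those of the second triple
(unit `*` partner), so the finite clauses of `LocHypQb801` there are the first clause of
`CQ801.LocBQ801`; at `u` (split, two places over it) the inert clause is void.  (c) `LocPQ563`
contains the archimedean clause `arch` of `LocHypQb801` (it does not depend on the set of
places), so `SphHypQC563` only transports it.  (d) `UnramQC563`: `F = ℚ(√-3)`; the places over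
`3` lie in `S'`.
-/

set_option autoImplicit false

open AutomorphicForm IsDedekindDomain NumberField MeasureTheory
open scoped ComplexConjugate

noncomputable section

namespace Fermat.Agent.LT.T7.PQ563

open Fermat.Agent.LT.H556 Fermat.Agent.LT.H556.A0 Fermat.Agent.LT.T7 Fermat.Agent.LT.T7.H305
  Fermat.Agent.LT.T7.L2Q Fermat.Agent.LT.T7.H893 Fermat.Agent.LT.T7.H962
  Fermat.Agent.LT.T7.H732 Fermat.Agent.LT.T7.MQ298 Fermat.Agent.LT.T7.CQ801

attribute [local instance] Fermat.Agent.LT.T5.instMeasurableSpaceG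

section Shape

variable {F : Type} [Field F] [NumberField F]

/-- **THE LOCAL SHAPE OF THE MEMBERS over `ℚ`**: the local hypotheses at the places of the level
`T₀` (and at infinity), the spherical shape outside the level. -/
def LocPQ563 (D : CompData ℚ F) (μr : @Measure (GL (Fin 2) ℝ) (borel _))
    (μc : @Measure (GL (Fin 2) ℂ) (borel _)) (T₀ : Finset (HeightOneSpectrum (𝓞 ℚ)))
    (n : HeightOneSpectrum (𝓞 F) → ℕ) (m : HeightOneSpectrum (𝓞 ℚ) → ℕ) : LocCondQ801 F :=
  fun T φ₀ Φ f₀ F0 F1 =>
    LocHypQb801 D μr μc T₀ n m φ₀ Φ f₀ F0 F1 ∧ SphOut893 (K := ℚ) (K' := F) D.l T₀ T φ₀ f₀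

end Shape

section Leaves

variable (F : Type) [Field F] [NumberField F]

/-- **LEAF T7.L2Q.1.H2b.0 = UNRAM [S-M] (algebraic number theory).**  In a common part of
helper60 which contains the ramified prime (`3 ∈ S`) every place of `F` outside `S'` is
unramified over `ℚ`.
Proof.  `F = ℚ(√-3)` (`HasSqrtNegThree`, `IsImagQuad`: degree `2`); a prime `p ≠ 3` is
unramified (the discriminant of the order `ℤ[ζ₃]` is `-3`); the places over `3` lie in `S'`
(`IsRamQ60`, `IsL2QBase.under_exact`, `IsL2QBase.fibre`). -/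
def UnramQC563 : Prop :=
  HasSqrtNegThree F → IsImagQuad F →
    ∀ (Φ : HeckeEigensystem F ℂ) (B : L2Q.H60.L2QBase F), L2Q.H60.IsL2QBase Φ B →
      L2Q.H60.IsRamQ60 B →
      ∀ (v : HeightOneSpectrum (𝓞 ℚ)) (w : HeightOneSpectrum (𝓞 F)), PlaceOver ℚ F v w →
        w ∉ B.S' → ∃ x : 𝓞 ℚ, x ∈ v.asIdeal ∧ algebraMap (𝓞 ℚ) (𝓞 F) x ∉ w.asIdeal ^ 2

/-- **NODE T7.L2Q.1.H2b.3 = SPH-HYP over `ℚ` (LOCAL, T6; mirror of `H893.SphHypC893`).**  The
local hypotheses at the places of `T₀` and the spherical shape at the places of `T ∖ T₀`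
(unramified, levels `0`) give the local hypotheses at the places of `T`.
Proof.  `v ∈ T ∖ T₀`.  `inv_up`, `inv_down`: a spherical function is bi-`GL₂(𝒪)`-invariant of
finite support, the levels are `0` (`IsLevelAt305`).  `inert`: `e = 1` (`UnramOut305`), the
fundamental lemma `T6.FundLemmaC` for `T6.IsBC` (`ℓ = 2`).  `split`: an enumeration `w 0, w 1`
in the order of the orbit with identifications `ℚ_v ≃ F_{w j}` exists; the convolution product
of spherical functions is spherical and its Satake transform is the product; the Satake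
transform is injective on the spherical functions.  The archimedean clauses do not depend on
the set of places. -/
def SphHypQC563 : Prop :=
  IsImagQuad F →
    ∀ D : CompData ℚ F, IsCompData D → IsCycExt ℚ F D.l → D.l = 2 →
    ∀ μr : @Measure (GL (Fin 2) ℝ) (borel _), @Measure.IsHaarMeasure _ _ _ (borel _) μr →
    ∀ μc : @Measure (GL (Fin 2) ℂ) (borel _), @Measure.IsHaarMeasure _ _ _ (borel _) μc →
    ∀ (T₀ : Finset (HeightOneSpectrum (𝓞 ℚ))), UnramOut305 (K' := F) T₀ →
    ∀ (n : HeightOneSpectrum (𝓞 F) → ℕ) (m : HeightOneSpectrum (𝓞 ℚ) → ℕ),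
      IsLevelAt305 T₀ n m →
    ∀ T : Finset (HeightOneSpectrum (𝓞 ℚ)), T₀ ⊆ T →
    ∀ (φ₀ : ∀ w : HeightOneSpectrum (𝓞 F), GL (Fin 2) (w.adicCompletion F) → ℂ)
      (Φ : InfinitePlace F → GL (Fin 2) ℂ → ℂ)
      (f₀ : ∀ v : HeightOneSpectrum (𝓞 ℚ), GL (Fin 2) (v.adicCompletion ℚ) → ℂ)
      (F0 F1 : GL (Fin 2) ℝ → ℂ),
      LocHypQb801 D μr μc T₀ n m φ₀ Φ f₀ F0 F1 →
      SphOut893 (K := ℚ) (K' := F) D.l T₀ T φ₀ f₀ →
      LocHypQb801 D μr μc T n m φ₀ Φ f₀ F0 F1

/-- **NODE T7.L2Q.1.H2b.4 = PROD-SHAPE over `ℚ` (the CALCULUS of pure tensors; mirror of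
`H893.ProdShapeC893`).**  For a common part with the ramified prime, a bad element, a level `𝔫`
with exponents `(T₀, n, n₀, m)` and Haar measures `μr`, `μc` there are constants `c ≠ 0`,
`c₀ ≠ 0` such that for every `a ≠ 0` and all pre-data of level `𝔫` with the operator properties
and the local shape (`LocAQ801 c` with constant `1`, `LocBQ801 … c` with constant `a`) the
members of the families are averages of pure tensors with constant `a * c₀` whose components
satisfy `LocPQ563`.  See the header. -/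
def ProdShapeQC563 : Prop :=
  HasSqrtNegThree F → IsImagQuad F →
    ∀ (Φ : HeckeEigensystem F ℂ) (B : L2Q.H60.L2QBase F), L2Q.H60.IsL2QBase Φ B →
    L2Q.H60.IsRamQ60 B → ∀ g : G F, B.IsBad g →
    ∀ (𝔫 : Ideal (𝓞 ℚ)) (μr : @Measure (GL (Fin 2) ℝ) (borel _))
      (μc : @Measure (GL (Fin 2) ℂ) (borel _)),
      @Measure.IsHaarMeasure _ _ _ (borel _) μr → @Measure.IsHaarMeasure _ _ _ (borel _) μc →
    ∀ (T₀ : Finset (HeightOneSpectrum (𝓞 ℚ)))
      (n n₀ : HeightOneSpectrum (𝓞 F) → ℕ) (m : HeightOneSpectrum (𝓞 ℚ) → ℕ),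
      (∀ v : HeightOneSpectrum (𝓞 ℚ), v ∈ T₀ ↔ v.asIdeal ∣ 𝔫) →
      IsLevelOf893 𝔫 m → IsLevelOf893 (upI (K' := F) 𝔫) n → IsLevelOf893 B.𝔑₀ n₀ →
      ∃ c c₀ : ℂ, c ≠ 0 ∧ c₀ ≠ 0 ∧
        ∀ a : ℂ, a ≠ 0 → ∀ E : L2QPre732 F, E.𝔫 = 𝔫 →
          IsL2QPreOp732 Φ (toBase962_732 B) g E →
          (∀ X : List (Gen F), (∀ x ∈ X, x.Out B.S') →
            IsAvgPureQ801 (upI (K' := F) 𝔫) 𝔫 T₀ (LocAQ801 c T₀ n m) 1
              (E.Φ₁ X) (E.F₁ QWt.w0 X) (E.F₁ QWt.w1 X)) →
          IsAvgPureQ801 (upI (K' := F) 𝔫) 𝔫 T₀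
            (LocBQ801 (toBase962_732 B) g 𝔫 μr μc c T₀ n n₀ m) a
            E.φ₂ (E.f₂ QWt.w0) (E.f₂ QWt.w1) →
          ∀ (X : List (Gen F)) (k : ℤ) (mm : ℕ), (∀ x ∈ X, x.Out B.S') →
            IsAvgPureQ801 (upI (K' := F) 𝔫) 𝔫 T₀
              (LocPQ563 ((toBase962_732 B).comp 𝔫) μr μc T₀ n m) (a * c₀)
              (E.up (toBase962_732 B) X k mm)
              (E.down (toBase962_732 B) QWt.w0 X k mm)
              (E.down (toBase962_732 B) QWt.w1 X k mm)

end Leaves

/-! ## Appendix: the equation lemmas of the definitions of this file are realised HERE -/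

theorem eqns_realised_prodMtQ563 : True := by
  have _h0 := @LocPQ563.eq_1
  have _h1 := @UnramQC563.eq_1
  have _h2 := @SphHypQC563.eq_1
  have _h3 := @ProdShapeQC563.eq_1
  have _g0 := @LocPQ563.eq_def
  have _g1 := @UnramQC563.eq_def
  have _g2 := @SphHypQC563.eq_def
  have _g3 := @ProdShapeQC563.eq_def
  trivial

end Fermat.Agent.LT.T7.PQ563

end
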