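import Mathlib
import Fermat.Agent.LT.T7.H563.ProdMtQSpec
import Fermat.Agent.LT.T7.P51.ProdMtSpec

/-!
# Row LT, tower T7, node T7.L2Q.1.H2b.4 `PQ563.ProdShapeQC563` (registry row 2919, helper563):
# SUB-CUT -- Spec

OFF-MAIN.  Definitions and frozen Props only (the proved tops are `ProdShapeQTop.lean`).  No
hole, nothing assumed.  ADDITIVE (new names only, all suffixed `563`, namespace
`Fermat.Agent.LT.T7.PQ563`).  MIRROR over `ℚ` of the spare cut of the cubic node by helper51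
(`T7/P51/ProdMtSpec.lean` 4b4a6c6c, `T7/P51/GlobProdSpec.lean` 947ef7f3; audited by helper416
and helper950).  The field-independent vocabulary of helper51 is USED AS IT IS
(`P51.regLoc51`, `P51.RegAt51`, `P51.SplitAt51`, `P51.InertAt51` for `K = ℚ`, `K' = F`).

    prodShapeQC_of563 : GlobProdQC563 F → LocProdQC563 F → ProdShapeQC563 F
    globProdQC_of563  : OpAvgQC563 F → ConvAvgQC563 F → GlobProdQC563 F
    locProdQC_of563   : RegOrbQC563 F → SplitOrbQC563 F → SphProdQC563 F → ArchProdQC563 F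
                          → LocProdQC563 F

## The cut

The members are `E.up = Φ₁ X ⋆ lsum Hg (regL (o 0) z' H' k j φ₂)` and, for the two types,
`E.down n = F₁ n X ⋆ regL u z H k j (f₂ n)`; the base functions are averages of pure tensors of
the shapes `CQ801.LocAQ801 c`, `CQ801.LocBQ801 … c`.

* **`LocOpQ563`** = the local shape of the OPERATED second triple: `LocBQ801` with the unit
  components at the bad places replaced by the double coset functions of `g` and the Iwahori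
  components at `o 0`, `u` replaced by `P51.regLoc51`.
* **`LocProdQ563 … t lam`** = the local shape of the PRODUCTS, in terms of the components of the
  two triples: bad places: the double coset functions upstairs, the partner downstairs; the
  orbit: `regLoc51` at `o 0`, `1_I` at `o 1`, `t · regLoc51` at `u`; outside the level: the
  convolution products (`vol GL₂(𝒪) = 1`) of the spherical components; at infinity: the
  convolution products for `μc` upstairs and `lam ·` the convolution products for `μr`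
  downstairs (for each of the two weights).
* **`GlobProdQC563`** (NODE, global) = `OpAvgQC563` (NODE: adelic coset bookkeeping) +
  `ConvAvgQC563` (NODE: Haar splitting + Fubini): there is `c₁ ≠ 0` such that for all
  `c, t, lam, a ≠ 0` the members are averages of pure tensors of shape `LocProdQ563 … t lam`
  with the constant `a c₁ / (t lam)` downstairs.
* **`LocProdQC563`** (NODE, local): there are `c, t, lam ≠ 0` such that the shape
  `LocProdQ563 … c … t lam` implies `LocPQ563` (the local hypotheses on `T₀` and at infinity,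
  the spherical shape outside).  Leaves: `RegOrbQC563` (regularity along the orbit),
  `SplitOrbQC563` (Iwahori–Hecke at `u`; gives `t`), `SphProdQC563` (products of spherical
  functions), `ArchProdQC563` (Abel relation of the products + wiring; gives `c`, `lam`).  The
  clauses at the bad places are those of the partner (proved in the top); the inert clause at
  `u` is void (two places over `u`).

FALSITY CHECKS (helper563).  (a) Constants: `pureQ298 T (f₀ with t X at u) (lam F) =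
t lam pureQ298 T (f₀ with X at u) F`, so the constant `a c₁ / (t lam)` is right for ALL
`t, lam ≠ 0`; `c₁ = c_ℚ / c_F` (the normalising constants of the two Haar measures of the
frames for local measures with `vol U = 1`, and `μr`, `μc`), the constant upstairs goes into
the measure of the parameter space.  The SAME finite components and the same constant serve
the two weights: the member of type `n` is the product of the members of type `n`.
(b) `ArchProdQC563`: the Abel transform is multiplicative on the bi-`U(2)`-invariant functions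
and on the functions of a fixed weight; `halfQ801 c β₁ ⋆ halfQ801 c β₂ = 4 c² halfQ801 1
(β₁ ⋆ β₂)`; the convolution product of symmetric bumps is a symmetric bump; so the products are
in the Abel relation `e c²`, `e > 0` depending on `μr, μc` only, and `lam = c_w / (e c²)` for
the constant `c_w` of the wiring `T3.H830.archWire830` (station of helper680:
`abelOkAt_conv680`, `abelOkAt_smul680`, `abelOkAt_match680`).  (c) `RegOrbQC563`,
`SplitOrbQC563`: `u ∣ 𝔫`, so `n (o j) ≥ 1`, `m u ≥ 1` and `U ⊆ I`; `regLoc51` of `1_I` is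
`q^{-j/2} 1_{ϖ^k I diag(ϖ^j, 1) I}` (independent of the coset system and of the uniformiser),
`t = [I : U(m u)]`.  (d) `SphProdQC563`: at `v ∈ T ∖ T₀` the factors are spherical or the unit
`1_{GL₂(𝒪)}`; `T6.IsBC` and the split clause of `SphOut893` are multiplicative (Satake).
-/

set_option autoImplicit false

open AutomorphicForm IsDedekindDomain NumberField MeasureTheory
open scoped ComplexConjugate

noncomputable section

namespace Fermat.Agent.LT.T7.PQ563

open Fermat.Agent.LT.H556 Fermat.Agent.LT.H556.A0 Fermat.Agent.LT.T7 Fermat.Agent.LT.T7.H305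
  Fermat.Agent.LT.T7.L2Q Fermat.Agent.LT.T7.H893 Fermat.Agent.LT.T7.H962
  Fermat.Agent.LT.T7.H732 Fermat.Agent.LT.T7.MQ298 Fermat.Agent.LT.T7.CQ801

attribute [local instance] Fermat.Agent.LT.T5.instMeasurableSpaceG

/-! ## 1. The context, the coset systems, the shapes -/

section Shape

variable {F : Type} [Field F] [NumberField F]

/-- **THE CONTEXT** of the node `ProdShapeQC563`. -/
structure IsCtxQ563 (Φ : HeckeEigensystem F ℂ) (B : L2Q.H60.L2QBase F) (g : G F)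
    (𝔫 : Ideal (𝓞 ℚ)) (μr : @Measure (GL (Fin 2) ℝ) (borel _))
    (μc : @Measure (GL (Fin 2) ℂ) (borel _)) (T₀ : Finset (HeightOneSpectrum (𝓞 ℚ)))
    (n n₀ : HeightOneSpectrum (𝓞 F) → ℕ) (m : HeightOneSpectrum (𝓞 ℚ) → ℕ) : Prop where
  sqrt : HasSqrtNegThree F
  quad : IsImagQuad F
  base : L2Q.H60.IsL2QBase Φ B
  ram : L2Q.H60.IsRamQ60 B
  bad : B.IsBad g
  haar_r : @Measure.IsHaarMeasure _ _ _ (borel _) μr
  haar_c : @Measure.IsHaarMeasure _ _ _ (borel _) μc
  mem_T₀ : ∀ v : HeightOneSpectrum (𝓞 ℚ), v ∈ T₀ ↔ v.asIdeal ∣ 𝔫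
  lev_m : IsLevelOf893 𝔫 m
  lev_n : IsLevelOf893 (upI (K' := F) 𝔫) n
  lev_n₀ : IsLevelOf893 B.𝔑₀ n₀

/-- **THE LEVEL AND THE COSET SYSTEMS** (the fields of `H732.IsL2QPreOp732` which are used by
the local calculus). -/
structure IsSysQ563 (B : L2Q.H60.L2QBase F) (𝔫 : Ideal (𝓞 ℚ))
    (H' : Finset (G F)) (z' : G F) (H : Finset (G ℚ)) (z : G ℚ) : Prop where
  level_ne : 𝔫 ≠ ⊥
  level_g : upI (K' := F) 𝔫 ≤ B.𝔑₀
  mem_S'_g : ∀ w : HeightOneSpectrum (𝓞 F), w ∈ B.S' ↔ w.asIdeal ∣ upI (K' := F) 𝔫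
  u_level : B.u.asIdeal ∣ 𝔫
  sys' : IsIwCosetSystem (B.o 0) H'
  unif' : IsScalarUniformizerAt (B.o 0) z'
  sys : IsIwCosetSystem B.u H
  unif : IsScalarUniformizerAt B.u z

/-- **THE LOCAL SHAPE OF THE OPERATED SECOND TRIPLE.**  `(φ₂, f₂)` are the finite components of
a pure tensor of shape `LocBQ801`; the components at infinity are unchanged. -/
def LocOpQ563 (B : L2QBase962 F) (g : G F) (𝔫 : Ideal (𝓞 ℚ))
    (μr : @Measure (GL (Fin 2) ℝ) (borel _)) (μc : @Measure (GL (Fin 2) ℂ) (borel _))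
    (c : ℂ) (T₀ : Finset (HeightOneSpectrum (𝓞 ℚ)))
    (n n₀ : HeightOneSpectrum (𝓞 F) → ℕ) (m : HeightOneSpectrum (𝓞 ℚ) → ℕ)
    (H' : Finset (G F)) (z' : G F) (H : Finset (G ℚ)) (z : G ℚ) (k : ℤ) (j : ℕ) :
    LocCondQ801 F :=
  fun T φ₀ Φ f₀ F0 F1 =>
    ∃ (φ₂ : ∀ w : HeightOneSpectrum (𝓞 F), GL (Fin 2) (w.adicCompletion F) → ℂ)
      (f₂ : ∀ v : HeightOneSpectrum (𝓞 ℚ), GL (Fin 2) (v.adicCompletion ℚ) → ℂ),
      LocBQ801 B g 𝔫 μr μc c T₀ n n₀ m T φ₂ Φ f₂ F0 F1 ∧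
      (∀ v ∈ T₀, v ≠ B.u → f₀ v = f₂ v ∧
        ∀ w : HeightOneSpectrum (𝓞 F), PlaceOver ℚ F v w →
          φ₀ w = dblFn893 (n₀ w) (finGL305 w g)) ∧
      f₀ B.u = P51.regLoc51 B.u z H k j iwFn893 ∧
      φ₀ (B.o 0) = P51.regLoc51 (B.o 0) z' H' k j iwFn893 ∧
      φ₀ (B.o 1) = iwFn893 ∧
      ∀ v ∈ T, v ∉ T₀ → f₀ v = f₂ v ∧
        ∀ w : HeightOneSpectrum (𝓞 F), PlaceOver ℚ F v w → φ₀ w = φ₂ w

open Classical in
/-- **THE LOCAL SHAPE OF THE PRODUCTS over `ℚ`.**  `(φ₀, Φ, f₀, F0, F1)` are the components of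
the product of a pure tensor of shape `LocAQ801 c` (first triple) with the operated pure tensor
of shape `LocBQ801 … c` (second triple); `t` is the normalising constant of the component
downstairs at `u`, `lam` the normalising constant of the components downstairs at the real
place. -/
def LocProdQ563 (B : L2QBase962 F) (g : G F) (𝔫 : Ideal (𝓞 ℚ))
    (μr : @Measure (GL (Fin 2) ℝ) (borel _)) (μc : @Measure (GL (Fin 2) ℂ) (borel _))
    (c : ℂ) (T₀ : Finset (HeightOneSpectrum (𝓞 ℚ)))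
    (n n₀ : HeightOneSpectrum (𝓞 F) → ℕ) (m : HeightOneSpectrum (𝓞 ℚ) → ℕ)
    (H' : Finset (G F)) (z' : G F) (H : Finset (G ℚ)) (z : G ℚ) (t lam : ℂ) (k : ℤ) (j : ℕ) :
    LocCondQ801 F :=
  fun T φ₀ Φ f₀ F0 F1 =>
    ∃ (T₁ T₂ : Finset (HeightOneSpectrum (𝓞 ℚ)))
      (φ₁ : ∀ w : HeightOneSpectrum (𝓞 F), GL (Fin 2) (w.adicCompletion F) → ℂ)
      (Φ₁ : InfinitePlace F → GL (Fin 2) ℂ → ℂ)
      (f₁ : ∀ v : HeightOneSpectrum (𝓞 ℚ), GL (Fin 2) (v.adicCompletion ℚ) → ℂ)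
      (F0₁ F1₁ : GL (Fin 2) ℝ → ℂ)
      (φ₂ : ∀ w : HeightOneSpectrum (𝓞 F), GL (Fin 2) (w.adicCompletion F) → ℂ)
      (Φ₂ : InfinitePlace F → GL (Fin 2) ℂ → ℂ)
      (f₂ : ∀ v : HeightOneSpectrum (𝓞 ℚ), GL (Fin 2) (v.adicCompletion ℚ) → ℂ)
      (F0₂ F1₂ : GL (Fin 2) ℝ → ℂ),
      T = T₁ ∪ T₂ ∧ T₀ ⊆ T₁ ∧ T₀ ⊆ T₂ ∧
      LocAQ801 c T₀ n m T₁ φ₁ Φ₁ f₁ F0₁ F1₁ ∧
      LocBQ801 B g 𝔫 μr μc c T₀ n n₀ m T₂ φ₂ Φ₂ f₂ F0₂ F1₂ ∧
      -- the bad places
      (∀ v ∈ T₀, v ≠ B.u → f₀ v = f₂ v ∧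
        ∀ w : HeightOneSpectrum (𝓞 F), PlaceOver ℚ F v w →
          φ₀ w = dblFn893 (n₀ w) (finGL305 w g)) ∧
      -- the orbit
      (f₀ B.u = fun x => t * P51.regLoc51 B.u z H k j iwFn893 x) ∧
      φ₀ (B.o 0) = P51.regLoc51 (B.o 0) z' H' k j iwFn893 ∧
      φ₀ (B.o 1) = iwFn893 ∧
      -- outside the level
      (∀ v ∈ T, v ∉ T₀ →
        T6.IsConv (T6.InU 0) (if v ∈ T₁ then f₁ v else unitFn893 0)
          (if v ∈ T₂ then f₂ v else unitFn893 0) (f₀ v) ∧
        ∀ w : HeightOneSpectrum (𝓞 F), PlaceOver ℚ F v w →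
          T6.IsConv (T6.InU 0) (if v ∈ T₁ then φ₁ w else unitFn893 0)
            (if v ∈ T₂ then φ₂ w else unitFn893 0) (φ₀ w)) ∧
      -- at infinity
      (∀ w : InfinitePlace F, Φ w = @T6.convInt _ _ (borel _) μc (Φ₁ w) (Φ₂ w)) ∧
      (F0 = fun x => lam * @T6.convInt _ _ (borel _) μr F0₁ F0₂ x) ∧
      F1 = fun x => lam * @T6.convInt _ _ (borel _) μr F1₁ F1₂ x

/-- The common hypotheses of the local leaves. -/
def IsLocQ563 (Φ : HeckeEigensystem F ℂ) (B : L2Q.H60.L2QBase F) (g : G F)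
    (𝔫 : Ideal (𝓞 ℚ)) (μr : @Measure (GL (Fin 2) ℝ) (borel _))
    (μc : @Measure (GL (Fin 2) ℂ) (borel _)) (c : ℂ)
    (T₀ : Finset (HeightOneSpectrum (𝓞 ℚ)))
    (n n₀ : HeightOneSpectrum (𝓞 F) → ℕ) (m : HeightOneSpectrum (𝓞 ℚ) → ℕ)
    (H' : Finset (G F)) (z' : G F) (H : Finset (G ℚ)) (z : G ℚ) (t lam : ℂ) (k : ℤ) (j : ℕ)
    (T : Finset (HeightOneSpectrum (𝓞 ℚ)))
    (φ₀ : ∀ w : HeightOneSpectrum (𝓞 F), GL (Fin 2) (w.adicCompletion F) → ℂ)
    (Φ' : InfinitePlace F → GL (Fin 2) ℂ → ℂ)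
    (f₀ : ∀ v : HeightOneSpectrum (𝓞 ℚ), GL (Fin 2) (v.adicCompletion ℚ) → ℂ)
    (F0 F1 : GL (Fin 2) ℝ → ℂ) : Prop :=
  IsCtxQ563 Φ B g 𝔫 μr μc T₀ n n₀ m ∧ IsSysQ563 B 𝔫 H' z' H z ∧ c ≠ 0 ∧ t ≠ 0 ∧ lam ≠ 0 ∧
    LocProdQ563 (toBase962_732 B) g 𝔫 μr μc c T₀ n n₀ m H' z' H z t lam k j T φ₀ Φ' f₀ F0 F1

end Shape

/-! ## 2. The nodes and the leaves -/

section Nodes

variable (F : Type) [Field F] [NumberField F]

/-- **NODE PS.G = GLOB-PROD over `ℚ` (global: Haar splitting, Fubini, coset systems; mirror of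
`P51.GlobProdC51`).**  In the context there is a constant `c₁ ≠ 0` such that for all
`c, t, lam, a ≠ 0` and all pre-data of level `𝔫` with the operator properties whose base
functions are averages of pure tensors of the shapes `LocAQ801 c` (constant `1`) and
`LocBQ801 … c` (constant `a`), the members are averages of pure tensors of the shape
`LocProdQ563 … t lam k j` with the constant `a c₁ / (t lam)`. -/
def GlobProdQC563 : Prop :=
  ∀ (Φ : HeckeEigensystem F ℂ) (B : L2Q.H60.L2QBase F) (g : G F) (𝔫 : Ideal (𝓞 ℚ))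
    (μr : @Measure (GL (Fin 2) ℝ) (borel _)) (μc : @Measure (GL (Fin 2) ℂ) (borel _))
    (T₀ : Finset (HeightOneSpectrum (𝓞 ℚ)))
    (n n₀ : HeightOneSpectrum (𝓞 F) → ℕ) (m : HeightOneSpectrum (𝓞 ℚ) → ℕ),
    IsCtxQ563 Φ B g 𝔫 μr μc T₀ n n₀ m →
    ∃ c₁ : ℂ, c₁ ≠ 0 ∧ ∀ c t lam a : ℂ, c ≠ 0 → t ≠ 0 → lam ≠ 0 → a ≠ 0 →
      ∀ E : L2QPre732 F, E.𝔫 = 𝔫 → IsL2QPreOp732 Φ (toBase962_732 B) g E →
        (∀ X : List (Gen F), (∀ x ∈ X, x.Out B.S') →
          IsAvgPureQ801 (upI (K' := F) 𝔫) 𝔫 T₀ (LocAQ801 c T₀ n m) 1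
            (E.Φ₁ X) (E.F₁ QWt.w0 X) (E.F₁ QWt.w1 X)) →
        IsAvgPureQ801 (upI (K' := F) 𝔫) 𝔫 T₀
          (LocBQ801 (toBase962_732 B) g 𝔫 μr μc c T₀ n n₀ m) a
          E.φ₂ (E.f₂ QWt.w0) (E.f₂ QWt.w1) →
        ∀ (X : List (Gen F)) (k : ℤ) (j : ℕ), (∀ x ∈ X, x.Out B.S') →
          IsAvgPureQ801 (upI (K' := F) 𝔫) 𝔫 T₀
            (LocProdQ563 (toBase962_732 B) g 𝔫 μr μc c T₀ n n₀ m E.H' E.z' E.H E.z t lam k j)
            (a * c₁ / (t * lam))
            (E.up (toBase962_732 B) X k j)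
            (E.down (toBase962_732 B) QWt.w0 X k j)
            (E.down (toBase962_732 B) QWt.w1 X k j)

/-- **NODE PS.G1 = OP-AVG over `ℚ` (adelic coset bookkeeping; mirror of `P51.OpAvgC51`).**  In
the context, for pre-data of level `𝔫` with the operator properties whose second triple is an
average of pure tensors of shape `LocBQ801 … c` with the constant `a`: the operated second
triple `(lsum Hg (regL (o 0) z' H' k j φ₂), regL u z H k j (f₂ w0), regL u z H k j (f₂ w1))` is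
an average of pure tensors of shape `LocOpQ563` with the constant `a` (same parameter space,
same measure).
Proof.  As `P51.OpAvgC51` (see there): `lsum`, `regL` are finite sums of left translates, so
they commute with the average; translates of pure tensors (`PT563.TrPureC563`,
`PT563.TrPureQC563`); the sum over `Hg` (`PT563.LsumDblC563`); every member is a test function
of level `𝔫 𝒪_F` (resp. `𝔫`, of the same type): bi-invariance of the new components under
`U(n w) ⊆ U(n₀ w)`, `U(n w) ⊆ I_w`. -/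
def OpAvgQC563 : Prop :=
  ∀ (Φ : HeckeEigensystem F ℂ) (B : L2Q.H60.L2QBase F) (g : G F) (𝔫 : Ideal (𝓞 ℚ))
    (μr : @Measure (GL (Fin 2) ℝ) (borel _)) (μc : @Measure (GL (Fin 2) ℂ) (borel _))
    (T₀ : Finset (HeightOneSpectrum (𝓞 ℚ)))
    (n n₀ : HeightOneSpectrum (𝓞 F) → ℕ) (m : HeightOneSpectrum (𝓞 ℚ) → ℕ),
    IsCtxQ563 Φ B g 𝔫 μr μc T₀ n n₀ m →
    ∀ c a : ℂ, c ≠ 0 → a ≠ 0 →
      ∀ E : L2QPre732 F, E.𝔫 = 𝔫 → IsL2QPreOp732 Φ (toBase962_732 B) g E →
      IsAvgPureQ801 (upI (K' := F) 𝔫) 𝔫 T₀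
        (LocBQ801 (toBase962_732 B) g 𝔫 μr μc c T₀ n n₀ m) a
        E.φ₂ (E.f₂ QWt.w0) (E.f₂ QWt.w1) →
      ∀ (k : ℤ) (j : ℕ),
        IsAvgPureQ801 (upI (K' := F) 𝔫) 𝔫 T₀
          (LocOpQ563 (toBase962_732 B) g 𝔫 μr μc c T₀ n n₀ m E.H' E.z' E.H E.z k j) a
          (lsum E.Hg (regL (B.o 0) E.z' E.H' k j E.φ₂))
          (regL B.u E.z E.H k j (E.f₂ QWt.w0)) (regL B.u E.z E.H k j (E.f₂ QWt.w1))

/-- **NODE PS.G2 = CONV-AVG over `ℚ` (Haar splitting + Fubini; mirror of `P51.ConvAvgC51`).**  In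
the context there is a constant `c₁ ≠ 0` such that the convolution (for the Haar measures of
the frames) of an average of pure tensors of shape `LocAQ801 c` with the constant `1` and an
average of pure tensors of shape `LocOpQ563` with the constant `a` is an average of pure
tensors of shape `LocProdQ563 … t lam` with the constant `a c₁ / (t lam)`.
Proof.  As `P51.ConvAvgC51`: parameter space = the product of the two parameter spaces,
measure = `c'` times the product measure, `c'` the normalising constant upstairs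
(`PT563.ConvPureC563 F`); Fubini (`PT563.ConvAvgC563 F`, `PT563.ConvAvgC563 ℚ`); downstairs
`PT563.ConvPureQC563` for each of the two weights (the same finite components, the same
constant `c_ℚ`); `1_{U(n_w)} * X = X` at the places of the level; the component downstairs at
`u` is multiplied by `t`, the components at the real place by `lam`, the constant divided by
`t lam`; `c₁ = c_ℚ / c'`.  The members are test functions (`conv` of test functions,
`isTestFn_conv872`). -/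
def ConvAvgQC563 : Prop :=
  ∀ (Φ : HeckeEigensystem F ℂ) (B : L2Q.H60.L2QBase F) (g : G F) (𝔫 : Ideal (𝓞 ℚ))
    (μr : @Measure (GL (Fin 2) ℝ) (borel _)) (μc : @Measure (GL (Fin 2) ℂ) (borel _))
    (T₀ : Finset (HeightOneSpectrum (𝓞 ℚ)))
    (n n₀ : HeightOneSpectrum (𝓞 F) → ℕ) (m : HeightOneSpectrum (𝓞 ℚ) → ℕ),
    IsCtxQ563 Φ B g 𝔫 μr μc T₀ n n₀ m →
    ∃ c₁ : ℂ, c₁ ≠ 0 ∧ ∀ c t lam a : ℂ, c ≠ 0 → t ≠ 0 → lam ≠ 0 → a ≠ 0 →
      ∀ (H' : Finset (G F)) (z' : G F) (H : Finset (G ℚ)) (z : G ℚ),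
        IsSysQ563 B 𝔫 H' z' H z →
        ∀ (k : ℤ) (j : ℕ) (φ₁' φ₂' : G F → ℂ) (f0₁ f1₁ f0₂ f1₂ : G ℚ → ℂ),
          IsAvgPureQ801 (upI (K' := F) 𝔫) 𝔫 T₀ (LocAQ801 c T₀ n m) 1 φ₁' f0₁ f1₁ →
          IsAvgPureQ801 (upI (K' := F) 𝔫) 𝔫 T₀
            (LocOpQ563 (toBase962_732 B) g 𝔫 μr μc c T₀ n n₀ m H' z' H z k j) a
            φ₂' f0₂ f1₂ →
          IsAvgPureQ801 (upI (K' := F) 𝔫) 𝔫 T₀
            (LocProdQ563 (toBase962_732 B) g 𝔫 μr μc c T₀ n n₀ m H' z' H z t lam k j)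
            (a * c₁ / (t * lam))
            (T5.conv B.R'.μ φ₁' φ₂') (T5.conv B.R.μ f0₁ f0₂) (T5.conv B.R.μ f1₁ f1₂)

/-- **NODE PS.L = LOC-PROD over `ℚ` (local; mirror of `P51.LocProdC51`).**  In the context there
are `c, t, lam ≠ 0` such that the shape `LocProdQ563 … c … t lam k j` implies `LocPQ563`: the
local hypotheses `LocHypQb801` at the places of the level and at infinity, the spherical shape
outside the level. -/
def LocProdQC563 : Prop :=
  ∀ (Φ : HeckeEigensystem F ℂ) (B : L2Q.H60.L2QBase F) (g : G F) (𝔫 : Ideal (𝓞 ℚ))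
    (μr : @Measure (GL (Fin 2) ℝ) (borel _)) (μc : @Measure (GL (Fin 2) ℂ) (borel _))
    (T₀ : Finset (HeightOneSpectrum (𝓞 ℚ)))
    (n n₀ : HeightOneSpectrum (𝓞 F) → ℕ) (m : HeightOneSpectrum (𝓞 ℚ) → ℕ),
    IsCtxQ563 Φ B g 𝔫 μr μc T₀ n n₀ m →
    ∃ c t lam : ℂ, c ≠ 0 ∧ t ≠ 0 ∧ lam ≠ 0 ∧
      ∀ (H' : Finset (G F)) (z' : G F) (H : Finset (G ℚ)) (z : G ℚ),
        IsSysQ563 B 𝔫 H' z' H z →
        ∀ (k : ℤ) (j : ℕ) (T : Finset (HeightOneSpectrum (𝓞 ℚ)))
          (φ₀ : ∀ w : HeightOneSpectrum (𝓞 F), GL (Fin 2) (w.adicCompletion F) → ℂ)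
          (Φ' : InfinitePlace F → GL (Fin 2) ℂ → ℂ)
          (f₀ : ∀ v : HeightOneSpectrum (𝓞 ℚ), GL (Fin 2) (v.adicCompletion ℚ) → ℂ)
          (F0 F1 : GL (Fin 2) ℝ → ℂ),
          LocProdQ563 (toBase962_732 B) g 𝔫 μr μc c T₀ n n₀ m H' z' H z t lam k j
            T φ₀ Φ' f₀ F0 F1 →
          LocPQ563 ((toBase962_732 B).comp 𝔫) μr μc T₀ n m T φ₀ Φ' f₀ F0 F1

/-! ### The leaves of `LocProdQC563` -/

/-- **LEAF PS.L1 = REG-ORB over `ℚ` (mirror of `P51.RegOrbC51`).**  Bi-invariance and finite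
support of the components at the place `u` and at the two places `o 0`, `o 1` over it
(`regLoc51` of the Iwahori function: sums over `I t I / I` of left translates; `U(n_w) ⊆ I`
because `u ∣ 𝔫`; the places over `u` are `o 0`, `o 1`: `orbit_all`). -/
def RegOrbQC563 : Prop :=
  ∀ Φ B g 𝔫 μr μc c T₀ n n₀ m H' z' H z t lam k j T φ₀ Φ' f₀ F0 F1,
    IsLocQ563 (F := F) Φ B g 𝔫 μr μc c T₀ n n₀ m H' z' H z t lam k j T φ₀ Φ' f₀ F0 F1 →
    P51.RegAt51 n m φ₀ f₀ B.u

/-- **LEAF PS.L2 = SPLIT-ORB over `ℚ` (Iwahori–Hecke algebra at `u`; mirror of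
`P51.SplitOrbC51`, `ℓ = 2`).**  There is `t ≠ 0` (`= [I : U(m_u)]`, depending on the context
only) such that for the shape with this `t` (and any `c, lam`) the clause `split` of
`LocHypQb801` holds at `u`: an enumeration of `o 0`, `o 1`, the identifications of the
completions at the split place `u`, and `t · regLoc51 u z H k j 1_I` is the convolution product
(`vol U(m_u) = 1`) of `regLoc51 (o 0) z' H' k j 1_I` and `1_I`. -/
def SplitOrbQC563 : Prop :=
  ∀ (Φ : HeckeEigensystem F ℂ) (B : L2Q.H60.L2QBase F) (g : G F) (𝔫 : Ideal (𝓞 ℚ))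
    (μr : @Measure (GL (Fin 2) ℝ) (borel _)) (μc : @Measure (GL (Fin 2) ℂ) (borel _))
    (T₀ : Finset (HeightOneSpectrum (𝓞 ℚ)))
    (n n₀ : HeightOneSpectrum (𝓞 F) → ℕ) (m : HeightOneSpectrum (𝓞 ℚ) → ℕ),
    IsCtxQ563 Φ B g 𝔫 μr μc T₀ n n₀ m →
    ∃ t : ℂ, t ≠ 0 ∧
      ∀ c H' z' H z lam k j T φ₀ Φ' f₀ F0 F1,
        IsLocQ563 (F := F) Φ B g 𝔫 μr μc c T₀ n n₀ m H' z' H z t lam k j T φ₀ Φ' f₀ F0 F1 →
        P51.SplitAt51 ((toBase962_732 B).comp 𝔫) n m φ₀ f₀ B.u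

/-- **LEAF PS.L3 = SPH-PROD over `ℚ`.**  At the places of `T` outside the level the products are
spherical and matched in the Satake form: `SphOut893 2 T₀ T` for the components of the
products (the factors are spherical with `SphOut893` on `T₁`, resp. `T₂`, or the unit
`1_{GL₂(𝒪)}`; the convolution product of spherical functions is spherical and its Satake
transform is the product; `T6.IsBC` is multiplicative). -/
def SphProdQC563 : Prop :=
  ∀ Φ B g 𝔫 μr μc c T₀ n n₀ m H' z' H z t lam k j T φ₀ Φ' f₀ F0 F1,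
    IsLocQ563 (F := F) Φ B g 𝔫 μr μc c T₀ n n₀ m H' z' H z t lam k j T φ₀ Φ' f₀ F0 F1 →
    SphOut893 (K := ℚ) (K' := F) 2 T₀ T φ₀ f₀

/-- **LEAF PS.L4 = ARCH-PROD over `ℚ` (Abel transforms + wiring; NO field data besides the
infinite places).**  For Haar measures `μr`, `μc` there are constants `c ≠ 0`, `lam ≠ 0` such
that for two triples in the Abel relation `c` (`ArchOkQ801 c`) the products
`(Φ₁ ⋆ Φ₂, lam · F0₁ ⋆ F0₂, lam · F1₁ ⋆ F1₂)` are test functions (bi-`U(2)`-invariant, of weight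
`0`, of weight `-1`) and MATCHED: `T6.IsArchMatch μr μc (Φ₁ w ⋆ Φ₂ w)
(lam · F0₁ ⋆ F0₂ + lam · F1₁ ⋆ F1₂)`.  See the header, falsity check (b). -/
def ArchProdQC563 : Prop :=
  IsImagQuad F →
    ∀ μr : @Measure (GL (Fin 2) ℝ) (borel _), @Measure.IsHaarMeasure _ _ _ (borel _) μr →
    ∀ μc : @Measure (GL (Fin 2) ℂ) (borel _), @Measure.IsHaarMeasure _ _ _ (borel _) μc →
    ∃ c lam : ℂ, c ≠ 0 ∧ lam ≠ 0 ∧
      ∀ (Φ₁ Φ₂ : InfinitePlace F → GL (Fin 2) ℂ → ℂ) (F0₁ F1₁ F0₂ F1₂ : GL (Fin 2) ℝ → ℂ),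
        ArchOkQ801 c Φ₁ F0₁ F1₁ → ArchOkQ801 c Φ₂ F0₂ F1₂ →
        (∀ w : InfinitePlace F,
          T6.IsArchTestC (@T6.convInt _ _ (borel _) μc (Φ₁ w) (Φ₂ w))) ∧
        T6.IsArchTestR 0 (fun x => lam * @T6.convInt _ _ (borel _) μr F0₁ F0₂ x) ∧
        T6.IsArchTestR (-1) (fun x => lam * @T6.convInt _ _ (borel _) μr F1₁ F1₂ x) ∧
        ∀ w : InfinitePlace F,
          T6.IsArchMatch μr μc (@T6.convInt _ _ (borel _) μc (Φ₁ w) (Φ₂ w))
            (fun x => lam * @T6.convInt _ _ (borel _) μr F0₁ F0₂ x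
              + lam * @T6.convInt _ _ (borel _) μr F1₁ F1₂ x)

end Nodes

/-! ## Appendix: the equation lemmas of the definitions of this file are realised HERE -/

theorem eqns_realised_prodShapeQ563 : True := by
  have _h0 := @LocOpQ563.eq_1
  have _h1 := @LocProdQ563.eq_1
  have _h2 := @IsLocQ563.eq_1
  have _h3 := @GlobProdQC563.eq_1
  have _h4 := @OpAvgQC563.eq_1
  have _h5 := @ConvAvgQC563.eq_1
  have _h6 := @LocProdQC563.eq_1
  have _h7 := @RegOrbQC563.eq_1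
  have _h8 := @SplitOrbQC563.eq_1
  have _h9 := @SphProdQC563.eq_1
  have _h10 := @ArchProdQC563.eq_1
  have _g0 := @LocOpQ563.eq_def
  have _g1 := @LocProdQ563.eq_def
  have _g2 := @IsLocQ563.eq_def
  have _g3 := @GlobProdQC563.eq_def
  have _g4 := @OpAvgQC563.eq_def
  have _g5 := @ConvAvgQC563.eq_def
  have _g6 := @LocProdQC563.eq_def
  have _g7 := @RegOrbQC563.eq_def
  have _g8 := @SplitOrbQC563.eq_def
  have _g9 := @SphProdQC563.eq_def
  have _g10 := @ArchProdQC563.eq_def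
  trivial

end Fermat.Agent.LT.T7.PQ563

end
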