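import Mathlib
import Fermat.Agent.LT.T7.H563.ProdShapeQSpec
import Fermat.Agent.LT.T7.P51.ConvAvgSpec

/-!
# Row LT, tower T7, node T7.L2Q.1.H2b.4.G2 `PQ563.ConvAvgQC563` (registry row 2972, helper563):
# SUB-CUT -- Spec

OFF-MAIN.  Definitions and frozen Props only (the proved top is `ConvAvgQTop.lean`).  No hole,
nothing assumed.  ADDITIVE (names suffixed `563`, namespace `Fermat.Agent.LT.T7.PQ563`).
MIRROR over `ℚ` of the second sub-cut of helper51 (`T7/P51/ConvAvgSpec.lean` dc819a38,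
`ConvAvgTop.lean` 02429d61).  USED AS THEY ARE (field-free or general in the fields):
`P51.ConvFamC51 F` (upstairs: `F` is totally complex), `P51.LocConvExC51`, `P51.UnitConvC51`,
`P51.UnitRegC51`, `P51.OverFinC51 ℚ F`, `P51.BelowUniqC51 ℚ F`, `P51.BelowExC51 ℚ F`,
`H893.LevelAtC893 ℚ F`.

    convAvgQC_of563 : P51.ConvFamC51 F → ConvFamQC563 → TestSmulQC563 → P51.LocConvExC51
        → P51.UnitConvC51 → P51.UnitRegC51 → RegAQC563 F → RegOpQC563 F → P51.OverFinC51 ℚ F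
        → P51.BelowUniqC51 ℚ F → P51.BelowExC51 ℚ F → H893.LevelAtC893 ℚ F → ConvAvgQC563 F

* **`ConvFamQC563`** (NODE, the field `ℚ`; Haar splitting + Fubini): `P51.ConvFamC51` for the
  pure tensors `MQ298.pureQ298` over `ℚ` (one real place, Haar measure `μr` of `GL₂(ℝ)`) and
  test functions of an arbitrary `K_∞`-type `τ`; ONE constant for all types.  From
  `PT563.ConvPureQC563` (closed: helper773/752/878), `PT563.ConvAvgC563 ℚ` (closed: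
  helper634/962/724/…), `T5.isTestFn_conv872` (helper872, every type), extension of a pure
  tensor to a larger set of places.
* **`TestSmulQC563`**: a scalar multiple of a test function (any type) over `ℚ` is a test
  function.
* **`RegAQC563 F`**, **`RegOpQC563 F`**: the components of the shapes `LocAQ801 c`, `LocOpQ563`
  are regular (bi-invariant of finite support for the levels at the places of `T`, continuous
  of compact support at infinity).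

FALSITY CHECKS (helper563).  (a) `ConvFamQC563`: the constant is chosen before the type and the
families; the proof of `ConvFamC51` does not use the type (`isTestFn_conv872` holds for every
`τ`).  (b) `RegOpQC563`: the partner `f₂ v` at a bad place is regular by the clause `inv_down`
of `LocHypQb801` on `T₀ ∖ {u}` (first clause of `LocBQ801`); `dblFn893 (n₀ w) g_w` is
bi-invariant under `U(n₀ w) ⊇ U(n w)` (`level_g`); `regLoc51 … 1_I` is bi-invariant under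
`I ⊇ U(n w)` (`u ∣ 𝔫`); outside `T₀` the components are spherical, the levels are `0`.
-/

set_option autoImplicit false

open AutomorphicForm IsDedekindDomain NumberField MeasureTheory
open scoped ComplexConjugate

noncomputable section

namespace Fermat.Agent.LT.T7.PQ563

open Fermat.Agent.LT.H556 Fermat.Agent.LT.H556.A0 Fermat.Agent.LT.T7 Fermat.Agent.LT.T7.H305
  Fermat.Agent.LT.T7.L2Q Fermat.Agent.LT.T7.H893 Fermat.Agent.LT.T7.H962
  Fermat.Agent.LT.T7.H732 Fermat.Agent.LT.T7.MQ298 Fermat.Agent.LT.T7.CQ801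

attribute [local instance] Fermat.Agent.LT.T5.instMeasurableSpaceG

/-! ## 1. Families of pure tensors over `ℚ` -/

section OverQ

/-- **A FAMILY OF PURE TENSORS over `ℚ`** of type `τ` over the parameter space `Ω` (mirror of
`P51.IsFam51`). -/
structure IsFamQ563 (𝔫 : Ideal (𝓞 ℚ)) (lv : HeightOneSpectrum (𝓞 ℚ) → ℕ)
    (T₀ : Finset (HeightOneSpectrum (𝓞 ℚ))) (τ : G ℚ → ℂ)
    {Ω : Type} [TopologicalSpace Ω] (T : Ω → Finset (HeightOneSpectrum (𝓞 ℚ)))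
    (f₀ : Ω → ∀ v : HeightOneSpectrum (𝓞 ℚ), GL (Fin 2) (v.adicCompletion ℚ) → ℂ)
    (Fr : Ω → GL (Fin 2) ℝ → ℂ) : Prop where
  sub : ∀ a : Ω, T₀ ⊆ T a
  test : ∀ a : Ω, T5.IsTestFn 𝔫 τ (pureQ298 (T a) (f₀ a) (Fr a))
  cont : Continuous (fun p : Ω × G ℚ => pureQ298 (T p.1) (f₀ p.1) (Fr p.1) p.2)
  supp : ∃ C : Set (G ℚ), IsCompact C ∧
    ∀ (a : Ω) (h : G ℚ), pureQ298 (T a) (f₀ a) (Fr a) h ≠ 0 → h ∈ C
  reg : ∀ (a : Ω) (v : HeightOneSpectrum (𝓞 ℚ)), v ∈ T a →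
    T6.IsBiInv (T6.InU (lv v)) (f₀ a v) ∧ T6.HasFinSupp (T6.InU (lv v)) (f₀ a v)
  arch : ∀ a : Ω, Continuous (Fr a) ∧ HasCompactSupport (Fr a)

open Classical in
/-- **NODE PS.G2.1 = CONV-FAM over `ℚ` (Haar splitting + Fubini; mirror of `P51.ConvFamC51`).**
`μ` a Haar measure of `GL₂(𝔸_ℚ)`, `μr` one of `GL₂(ℝ)`, levels `lv` (`0` outside `T₀`), `𝔫 ≠ 0`.
There is a constant `c > 0` such that for every type `τ`, two families of pure tensors of type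
`τ` over `Ω₁`, `Ω₂` and components `χ p` which are the local convolutions (`vol U(lv v) = 1`) of
the extended components at the places of `T₁ p.1 ∪ T₂ p.2`: the pure tensors
`pureQ298 (T₁ p.1 ∪ T₂ p.2) (χ p) (Fr₁ p.1 * Fr₂ p.2)` are test functions of level `𝔫` and type
`τ`, jointly continuous, supported in one compact set, and
`(∫ P₁ dν₁) ⋆ (∫ P₂ dν₂) = ∫ pureQ298 … d(c · ν₁ × ν₂)`.
Proof: as `P51.ConvFamC51` (see there) with `PT563.ConvPureQC563`, `PT563.ConvAvgC563 ℚ`,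
`isTestFn_conv872`. -/
def ConvFamQC563 : Prop :=
  ∀ μ : Measure (G ℚ), μ.IsHaarMeasure →
    ∀ μr : @Measure (GL (Fin 2) ℝ) (borel _), @Measure.IsHaarMeasure _ _ _ (borel _) μr →
    ∀ (T₀ : Finset (HeightOneSpectrum (𝓞 ℚ))) (lv : HeightOneSpectrum (𝓞 ℚ) → ℕ),
      (∀ v : HeightOneSpectrum (𝓞 ℚ), v ∉ T₀ → lv v = 0) →
    ∀ 𝔫 : Ideal (𝓞 ℚ), 𝔫 ≠ ⊥ →
    ∃ c : NNReal, c ≠ 0 ∧
      ∀ (τ : G ℚ → ℂ)
        (Ω₁ : Type) [TopologicalSpace Ω₁] [CompactSpace Ω₁] [T2Space Ω₁]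
        [SecondCountableTopology Ω₁] [MeasurableSpace Ω₁] [BorelSpace Ω₁]
        (ν₁ : Measure Ω₁) [IsFiniteMeasure ν₁]
        (Ω₂ : Type) [TopologicalSpace Ω₂] [CompactSpace Ω₂] [T2Space Ω₂]
        [SecondCountableTopology Ω₂] [MeasurableSpace Ω₂] [BorelSpace Ω₂]
        (ν₂ : Measure Ω₂) [IsFiniteMeasure ν₂]
        (T₁ : Ω₁ → Finset (HeightOneSpectrum (𝓞 ℚ)))
        (f₁ : Ω₁ → ∀ v : HeightOneSpectrum (𝓞 ℚ), GL (Fin 2) (v.adicCompletion ℚ) → ℂ)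
        (Fr₁ : Ω₁ → GL (Fin 2) ℝ → ℂ)
        (T₂ : Ω₂ → Finset (HeightOneSpectrum (𝓞 ℚ)))
        (f₂ : Ω₂ → ∀ v : HeightOneSpectrum (𝓞 ℚ), GL (Fin 2) (v.adicCompletion ℚ) → ℂ)
        (Fr₂ : Ω₂ → GL (Fin 2) ℝ → ℂ)
        (χ : Ω₁ × Ω₂ → ∀ v : HeightOneSpectrum (𝓞 ℚ), GL (Fin 2) (v.adicCompletion ℚ) → ℂ),
        IsFamQ563 𝔫 lv T₀ τ T₁ f₁ Fr₁ → IsFamQ563 𝔫 lv T₀ τ T₂ f₂ Fr₂ →
        (∀ (p : Ω₁ × Ω₂) (v : HeightOneSpectrum (𝓞 ℚ)), v ∈ T₁ p.1 ∪ T₂ p.2 →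
          T6.IsConv (T6.InU (lv v)) (P51.ext51 (T₁ p.1) (f₁ p.1) v)
            (P51.ext51 (T₂ p.2) (f₂ p.2) v) (χ p v)) →
        (∀ p : Ω₁ × Ω₂, T5.IsTestFn 𝔫 τ
          (pureQ298 (T₁ p.1 ∪ T₂ p.2) (χ p)
            (@T6.convInt _ _ (borel _) μr (Fr₁ p.1) (Fr₂ p.2)))) ∧
        Continuous (fun q : (Ω₁ × Ω₂) × G ℚ =>
          pureQ298 (T₁ q.1.1 ∪ T₂ q.1.2) (χ q.1)
            (@T6.convInt _ _ (borel _) μr (Fr₁ q.1.1) (Fr₂ q.1.2)) q.2) ∧
        (∃ C : Set (G ℚ), IsCompact C ∧ ∀ (p : Ω₁ × Ω₂) (h : G ℚ),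
          pureQ298 (T₁ p.1 ∪ T₂ p.2) (χ p)
            (@T6.convInt _ _ (borel _) μr (Fr₁ p.1) (Fr₂ p.2)) h ≠ 0 → h ∈ C) ∧
        ∀ h : G ℚ,
          T5.conv μ (fun x => ∫ a, pureQ298 (T₁ a) (f₁ a) (Fr₁ a) x ∂ν₁)
              (fun x => ∫ b, pureQ298 (T₂ b) (f₂ b) (Fr₂ b) x ∂ν₂) h
            = ∫ p, pureQ298 (T₁ p.1 ∪ T₂ p.2) (χ p)
                (@T6.convInt _ _ (borel _) μr (Fr₁ p.1) (Fr₂ p.2)) h
                ∂(c • (ν₁.prod ν₂))

/-- **LEAF PS.G2.2 = TEST-SMUL over `ℚ` (every type).**  A scalar multiple of a test function is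
a test function. -/
def TestSmulQC563 : Prop :=
  ∀ (𝔫 : Ideal (𝓞 ℚ)) (τ : G ℚ → ℂ) (φ : G ℚ → ℂ) (c : ℂ),
    T5.IsTestFn 𝔫 τ φ → T5.IsTestFn 𝔫 τ (fun h => c * φ h)

end OverQ

/-! ## 2. The leaves on the shapes -/

section Shapes

variable (F : Type) [Field F] [NumberField F]

/-- **LEAF PS.G2.5 = REG-A over `ℚ` (mirror of `P51.RegAC51`).**  The components of the shape
`LocAQ801 c` are regular at the places of `T` (unit at the level, spherical outside: levels `0`)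
and at infinity (test functions: `ArchOkQ801`). -/
def RegAQC563 : Prop :=
  ∀ (Φ : HeckeEigensystem F ℂ) (B : L2Q.H60.L2QBase F) (g : G F) (𝔫 : Ideal (𝓞 ℚ))
    (μr : @Measure (GL (Fin 2) ℝ) (borel _)) (μc : @Measure (GL (Fin 2) ℂ) (borel _))
    (T₀ : Finset (HeightOneSpectrum (𝓞 ℚ)))
    (n n₀ : HeightOneSpectrum (𝓞 F) → ℕ) (m : HeightOneSpectrum (𝓞 ℚ) → ℕ),
    IsCtxQ563 Φ B g 𝔫 μr μc T₀ n n₀ m →
    ∀ (c : ℂ) (T : Finset (HeightOneSpectrum (𝓞 ℚ)))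
      (φ₀ : ∀ w : HeightOneSpectrum (𝓞 F), GL (Fin 2) (w.adicCompletion F) → ℂ)
      (Φ' : InfinitePlace F → GL (Fin 2) ℂ → ℂ)
      (f₀ : ∀ v : HeightOneSpectrum (𝓞 ℚ), GL (Fin 2) (v.adicCompletion ℚ) → ℂ)
      (F0 F1 : GL (Fin 2) ℝ → ℂ),
      T₀ ⊆ T → LocAQ801 c T₀ n m T φ₀ Φ' f₀ F0 F1 →
      (∀ v ∈ T, P51.RegAt51 n m φ₀ f₀ v) ∧
      (∀ w : InfinitePlace F, Continuous (Φ' w) ∧ HasCompactSupport (Φ' w)) ∧
      (Continuous F0 ∧ HasCompactSupport F0) ∧ (Continuous F1 ∧ HasCompactSupport F1)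

/-- **LEAF PS.G2.6 = REG-OP over `ℚ` (mirror of `P51.RegOpC51`).**  The components of the shape
`LocOpQ563` are regular at the places of `T` (double coset functions and partners at the bad
places, `regLoc51` of the Iwahori function along the orbit, spherical outside) and at
infinity. -/
def RegOpQC563 : Prop :=
  ∀ (Φ : HeckeEigensystem F ℂ) (B : L2Q.H60.L2QBase F) (g : G F) (𝔫 : Ideal (𝓞 ℚ))
    (μr : @Measure (GL (Fin 2) ℝ) (borel _)) (μc : @Measure (GL (Fin 2) ℂ) (borel _))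
    (T₀ : Finset (HeightOneSpectrum (𝓞 ℚ)))
    (n n₀ : HeightOneSpectrum (𝓞 F) → ℕ) (m : HeightOneSpectrum (𝓞 ℚ) → ℕ),
    IsCtxQ563 Φ B g 𝔫 μr μc T₀ n n₀ m →
    ∀ (H' : Finset (G F)) (z' : G F) (H : Finset (G ℚ)) (z : G ℚ),
      IsSysQ563 B 𝔫 H' z' H z →
    ∀ (c : ℂ) (k : ℤ) (j : ℕ) (T : Finset (HeightOneSpectrum (𝓞 ℚ)))
      (φ₀ : ∀ w : HeightOneSpectrum (𝓞 F), GL (Fin 2) (w.adicCompletion F) → ℂ)
      (Φ' : InfinitePlace F → GL (Fin 2) ℂ → ℂ)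
      (f₀ : ∀ v : HeightOneSpectrum (𝓞 ℚ), GL (Fin 2) (v.adicCompletion ℚ) → ℂ)
      (F0 F1 : GL (Fin 2) ℝ → ℂ),
      T₀ ⊆ T →
      LocOpQ563 (toBase962_732 B) g 𝔫 μr μc c T₀ n n₀ m H' z' H z k j T φ₀ Φ' f₀ F0 F1 →
      (∀ v ∈ T, P51.RegAt51 n m φ₀ f₀ v) ∧
      (∀ w : InfinitePlace F, Continuous (Φ' w) ∧ HasCompactSupport (Φ' w)) ∧
      (Continuous F0 ∧ HasCompactSupport F0) ∧ (Continuous F1 ∧ HasCompactSupport F1)

end Shapes

/-! ## Appendix: the equation lemmas of the definitions of this file are realised HERE -/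

theorem eqns_realised_convAvgQ563 : True := by
  have _h0 := @ConvFamQC563.eq_1
  have _h1 := @TestSmulQC563.eq_1
  have _h2 := @RegAQC563.eq_1
  have _h3 := @RegOpQC563.eq_1
  have _g0 := @ConvFamQC563.eq_def
  have _g1 := @TestSmulQC563.eq_def
  have _g2 := @RegAQC563.eq_def
  have _g3 := @RegOpQC563.eq_def
  trivial

end Fermat.Agent.LT.T7.PQ563

end
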