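import Mathlib
import Fermat.Agent.LT.T7.H563.ConvAvgQSpec

/-!
# Row LT, tower T7, node T7.L2Q.1.H2b.4.G2 `PQ563.ConvAvgQC563` (row 2972, helper563): the top

OFF-MAIN.  No hole, nothing assumed.  ADDITIVE.  Port over `ℚ` of the top of helper51
(`T7/P51/ConvAvgTop.lean` 02429d61, `convAvgC_of51`).

    convAvgQC_of563 : P51.ConvFamC51 F → ConvFamQC563 → TestSmulQC563 → P51.LocConvExC51
        → P51.UnitConvC51 → P51.UnitRegC51 → RegAQC563 F → RegOpQC563 F → P51.OverFinC51 ℚ F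
        → P51.BelowUniqC51 ℚ F → P51.BelowExC51 ℚ F → H893.LevelAtC893 ℚ F → ConvAvgQC563 F
-/

set_option autoImplicit false

open AutomorphicForm IsDedekindDomain NumberField MeasureTheory
open scoped ComplexConjugate

noncomputable section

namespace Fermat.Agent.LT.T7.PQ563

open Fermat.Agent.LT.H556 Fermat.Agent.LT.H556.A0 Fermat.Agent.LT.T7 Fermat.Agent.LT.T7.H305
  Fermat.Agent.LT.T7.L2Q Fermat.Agent.LT.T7.H893 Fermat.Agent.LT.T7.H962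
  Fermat.Agent.LT.T7.H732 Fermat.Agent.LT.T7.MQ298 Fermat.Agent.LT.T7.CQ801

attribute [local instance] Fermat.Agent.LT.T5.instMeasurableSpaceG

section OverQ

/-- A pure tensor over `ℚ` is linear in the component at a place of `T`. -/
theorem pureQ_scale563 (T : Finset (HeightOneSpectrum (𝓞 ℚ)))
    (f₀ f₀' : ∀ v : HeightOneSpectrum (𝓞 ℚ), GL (Fin 2) (v.adicCompletion ℚ) → ℂ)
    (Fr : GL (Fin 2) ℝ → ℂ) (u : HeightOneSpectrum (𝓞 ℚ)) (hu : u ∈ T)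
    (t : ℂ) (h1 : ∀ x, f₀' u x = t * f₀ u x) (h2 : ∀ v, v ≠ u → f₀' v = f₀ v) (h : G ℚ) :
    pureQ298 T f₀' Fr h = t * pureQ298 T f₀ Fr h := by
  classical
  unfold pureQ298
  split_ifs with hO
  · rw [← Finset.mul_prod_erase T _ hu,
      ← Finset.mul_prod_erase T (fun v => f₀ v (finGL305 v h)) hu, h1]
    have : ∏ v ∈ T.erase u, f₀' v (finGL305 v h) = ∏ v ∈ T.erase u, f₀ v (finGL305 v h) :=
      Finset.prod_congr rfl fun v hv => by rw [h2 v (Finset.ne_of_mem_erase hv)]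
    rw [this]
    ring
  · simp

/-- A pure tensor over `ℚ` is linear in the component at the real place. -/
theorem pureQ_scaleR563 (T : Finset (HeightOneSpectrum (𝓞 ℚ)))
    (f₀ : ∀ v : HeightOneSpectrum (𝓞 ℚ), GL (Fin 2) (v.adicCompletion ℚ) → ℂ)
    (Fr : GL (Fin 2) ℝ → ℂ) (lam : ℂ) (h : G ℚ) :
    pureQ298 T f₀ (fun x => lam * Fr x) h = lam * pureQ298 T f₀ Fr h := by
  classical
  unfold pureQ298
  split_ifs with hO
  · ring
  · simp

/-- `conv` is linear in the second argument. -/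
theorem conv_const_mulQ563 {K : Type} [Field K] [NumberField K] (μ : Measure (G K))
    (φ ψ : G K → ℂ) (a : ℂ) (h : G K) :
    T5.conv μ φ (fun x => a * ψ x) h = a * T5.conv μ φ ψ h := by
  unfold T5.conv
  rw [← integral_const_mul]
  congr 1
  funext y
  ring

end OverQ

section Top

variable {F : Type} [Field F] [NumberField F]

/-- The upper ideal of a non-zero ideal is not zero. -/
theorem upI_ne_botQ563 (𝔫 : Ideal (𝓞 ℚ)) (h : 𝔫 ≠ ⊥) : upI (K' := F) 𝔫 ≠ ⊥ := by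
  unfold upI
  intro h0
  exact h ((Ideal.map_eq_bot_iff_of_injective
    (FaithfulSMul.algebraMap_injective (𝓞 ℚ) (𝓞 F))).1 h0)

/-- Membership upstairs in terms of the place below. -/
theorem mem_over_iffQ563 (hBU : P51.BelowUniqC51 ℚ F) {T : Finset (HeightOneSpectrum (𝓞 ℚ))}
    {T' : Finset (HeightOneSpectrum (𝓞 F))} (hT : IsOver305 T T')
    {v : HeightOneSpectrum (𝓞 ℚ)} {w : HeightOneSpectrum (𝓞 F)} (hw : PlaceOver ℚ F v w) :
    w ∈ T' ↔ v ∈ T := by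
  constructor
  · intro h
    obtain ⟨v', hv', hw'⟩ := (hT w).1 h
    rwa [hBU v v' w hw hw']
  · intro h
    exact (hT w).2 ⟨v, h, hw⟩

/-- **THE NODE `ConvAvgQC563` from the one-field nodes and the small leaves.** -/
theorem convAvgQC_of563 (hU' : P51.ConvFamC51 F) (hD : ConvFamQC563) (hTS : TestSmulQC563)
    (hEx : P51.LocConvExC51) (hUn : P51.UnitConvC51) (hUR : P51.UnitRegC51)
    (hRA : RegAQC563 F) (hRO : RegOpQC563 F) (hOF : P51.OverFinC51 ℚ F)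
    (hBU : P51.BelowUniqC51 ℚ F) (hBE : P51.BelowExC51 ℚ F) (hLA : LevelAtC893 ℚ F) :
    ConvAvgQC563 F := by
  classical
  intro Φ B g 𝔫 μr μc T₀ n n₀ m hctx
  by_cases h𝔫 : 𝔫 = ⊥
  · exact ⟨1, one_ne_zero, fun c t lam a _ _ _ _ H' z' H z hsys => absurd h𝔫 hsys.level_ne⟩
  have h𝔑 : upI (K' := F) 𝔫 ≠ ⊥ := upI_ne_botQ563 𝔫 h𝔫
  have hlev := hLA 𝔫 T₀ n m hctx.mem_T₀ hctx.lev_m hctx.lev_n
  obtain ⟨T₀', hT₀'⟩ := hOF T₀
  have hn0 : ∀ w : HeightOneSpectrum (𝓞 F), w ∉ T₀' → n w = 0 := by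
    intro w hw
    obtain ⟨v, hv⟩ := hBE w
    exact hlev.2 v w (fun hv0 => hw ((hT₀' w).2 ⟨v, hv0, hv⟩)) hv
  obtain ⟨cu, hcu, hUp⟩ := hU' hctx.quad.2 B.R'.μ hctx.base.frame'.frame.haar μc hctx.haar_c
    T₀' n hn0 (upI (K' := F) 𝔫) h𝔑
  obtain ⟨cd, hcd, hDn⟩ := hD B.R.μ hctx.base.frame.frame.haar μr hctx.haar_r
    T₀ m hlev.1 𝔫 h𝔫
  have hcuC : (cu : ℂ) ≠ 0 := by exact_mod_cast hcu
  have hcdC : (cd : ℂ) ≠ 0 := by exact_mod_cast hcd
  refine ⟨(cd : ℂ) / (cu : ℂ), div_ne_zero hcdC hcuC, ?_⟩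
  intro c t lam a hc ht hlam ha H' z' H z hsys k j φ₁' φ₂' f0₁ f1₁ f0₂ f1₂ hA hB
  obtain ⟨Ω₁, i11, i12, i13, i14, i15, i16, ν₁, i17, T₁, T₁', φ1, Φ1, f1, F01, F11, A1, At',
    At0, At1, Ac', Ac0, Ac1, As', As0, As1, Aφ, Af0, Af1⟩ := hA
  obtain ⟨Ω₂, i21, i22, i23, i24, i25, i26, ν₂, i27, T₂, T₂', φ2, Φ2, f2, F02, F12, B1, Bt',
    Bt0, Bt1, Bc', Bc0, Bc1, Bs', Bs0, Bs1, Bφ, Bf0, Bf1⟩ := hB
  -- the original components of the second triple
  have hB1' : ∀ b : Ω₂, ∃ (φo : ∀ w : HeightOneSpectrum (𝓞 F),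
        GL (Fin 2) (w.adicCompletion F) → ℂ)
      (fo : ∀ v : HeightOneSpectrum (𝓞 ℚ), GL (Fin 2) (v.adicCompletion ℚ) → ℂ),
      LocBQ801 (toBase962_732 B) g 𝔫 μr μc c T₀ n n₀ m (T₂ b) φo (Φ2 b) fo (F02 b) (F12 b) ∧
      (∀ v ∈ T₀, v ≠ B.u → f2 b v = fo v ∧
        ∀ w : HeightOneSpectrum (𝓞 F), PlaceOver ℚ F v w →
          φ2 b w = dblFn893 (n₀ w) (finGL305 w g)) ∧
      f2 b B.u = P51.regLoc51 B.u z H k j iwFn893 ∧
      φ2 b (B.o 0) = P51.regLoc51 (B.o 0) z' H' k j iwFn893 ∧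
      φ2 b (B.o 1) = iwFn893 ∧
      ∀ v ∈ T₂ b, v ∉ T₀ → f2 b v = fo v ∧
        ∀ w : HeightOneSpectrum (𝓞 F), PlaceOver ℚ F v w → φ2 b w = φo w :=
    fun b => (B1 b).2.2
  choose φo fo hLB hbad hfu hφ0 hφ1 hout using hB1'
  have hRA1 := fun a : Ω₁ => hRA Φ B g 𝔫 μr μc T₀ n n₀ m hctx c (T₁ a) (φ1 a) (Φ1 a) (f1 a)
    (F01 a) (F11 a) (A1 a).1 (A1 a).2.2
  have hRO1 := fun b : Ω₂ => hRO Φ B g 𝔫 μr μc T₀ n n₀ m hctx H' z' H z hsys c k j (T₂ b)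
    (φ2 b) (Φ2 b) (f2 b) (F02 b) (F12 b) (B1 b).1 (B1 b).2.2
  have hsubT₀' : ∀ {T : Finset (HeightOneSpectrum (𝓞 ℚ))}
      {T' : Finset (HeightOneSpectrum (𝓞 F))}, T₀ ⊆ T → IsOver305 T T' → T₀' ⊆ T' := by
    intro T T' hT hO w hw
    obtain ⟨v, hv, hvw⟩ := (hT₀' w).1 hw
    exact (hO w).2 ⟨v, hT hv, hvw⟩
  have hu0 : B.u ∈ T₀ := (hctx.mem_T₀ B.u).2 hsys.u_level
  -- the families
  have famU1 : P51.IsFam51 (upI (K' := F) 𝔫) n T₀' T₁' φ1 Φ1 :=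
    { sub := fun a => hsubT₀' (A1 a).1 (A1 a).2.1
      test := At'
      cont := Ac'
      supp := As'
      reg := fun a w hw => by
        obtain ⟨v, hv, hvw⟩ := ((A1 a).2.1 w).1 hw
        exact ((hRA1 a).1 v hv).1 w hvw
      arch := fun a w => (hRA1 a).2.1 w }
  have famU2 : P51.IsFam51 (upI (K' := F) 𝔫) n T₀' T₂' φ2 Φ2 :=
    { sub := fun b => hsubT₀' (B1 b).1 (B1 b).2.1
      test := Bt'
      cont := Bc'
      supp := Bs'
      reg := fun b w hw => by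
        obtain ⟨v, hv, hvw⟩ := ((B1 b).2.1 w).1 hw
        exact ((hRO1 b).1 v hv).1 w hvw
      arch := fun b w => (hRO1 b).2.1 w }
  have famD10 : IsFamQ563 𝔫 m T₀ QWt.w0.type T₁ f1 F01 :=
    { sub := fun a => (A1 a).1
      test := fun a => by
        have := At0 a
        simp only [one_mul] at this
        exact this
      cont := by
        have := Ac0
        simp only [one_mul] at this
        exact this
      supp := As0
      reg := fun a v hv => ((hRA1 a).1 v hv).2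
      arch := fun a => (hRA1 a).2.2.1 }
  have famD11 : IsFamQ563 𝔫 m T₀ QWt.w1.type T₁ f1 F11 :=
    { sub := fun a => (A1 a).1
      test := fun a => by
        have := At1 a
        simp only [one_mul] at this
        exact this
      cont := by
        have := Ac1
        simp only [one_mul] at this
        exact this
      supp := As1
      reg := fun a v hv => ((hRA1 a).1 v hv).2
      arch := fun a => (hRA1 a).2.2.2 }
  have famD20 : IsFamQ563 𝔫 m T₀ QWt.w0.type T₂ f2 F02 :=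
    { sub := fun b => (B1 b).1
      test := fun b => by
        have := hTS 𝔫 _ _ a⁻¹ (Bt0 b)
        simp only [inv_mul_cancel_left₀ ha] at this
        exact this
      cont := by
        have := (continuous_const (y := a⁻¹)).mul Bc0
        exact this.congr fun p => inv_mul_cancel_left₀ ha _
      supp := Bs0
      reg := fun b v hv => ((hRO1 b).1 v hv).2
      arch := fun b => (hRO1 b).2.2.1 }
  have famD21 : IsFamQ563 𝔫 m T₀ QWt.w1.type T₂ f2 F12 :=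
    { sub := fun b => (B1 b).1
      test := fun b => by
        have := hTS 𝔫 _ _ a⁻¹ (Bt1 b)
        simp only [inv_mul_cancel_left₀ ha] at this
        exact this
      cont := by
        have := (continuous_const (y := a⁻¹)).mul Bc1
        exact this.congr fun p => inv_mul_cancel_left₀ ha _
      supp := Bs1
      reg := fun b v hv => ((hRO1 b).1 v hv).2
      arch := fun b => (hRO1 b).2.2.2 }
  -- regularity of the extended components outside the level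
  have hextU : ∀ {Ω : Type} [TopologicalSpace Ω] (T : Ω → Finset (HeightOneSpectrum (𝓞 F)))
      (φ : Ω → ∀ w : HeightOneSpectrum (𝓞 F), GL (Fin 2) (w.adicCompletion F) → ℂ)
      (Φ' : Ω → InfinitePlace F → GL (Fin 2) ℂ → ℂ),
      P51.IsFam51 (upI (K' := F) 𝔫) n T₀' T φ Φ' → ∀ (a : Ω) (w : HeightOneSpectrum (𝓞 F)),
      w ∉ T₀' → T6.IsBiInv (T6.InU 0) (P51.ext51 (T a) (φ a) w) ∧
        T6.HasFinSupp (T6.InU 0) (P51.ext51 (T a) (φ a) w) := by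
    intro Ω _ T φ Φ' hfam a w hw
    unfold P51.ext51
    split_ifs with h
    · have := hfam.reg a w h
      rwa [hn0 w hw] at this
    · exact hUR _ 0
  have hextD : ∀ {Ω : Type} [TopologicalSpace Ω] (τ : G ℚ → ℂ)
      (T : Ω → Finset (HeightOneSpectrum (𝓞 ℚ)))
      (φ : Ω → ∀ w : HeightOneSpectrum (𝓞 ℚ), GL (Fin 2) (w.adicCompletion ℚ) → ℂ)
      (Fr : Ω → GL (Fin 2) ℝ → ℂ),
      IsFamQ563 𝔫 m T₀ τ T φ Fr → ∀ (a : Ω) (w : HeightOneSpectrum (𝓞 ℚ)),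
      w ∉ T₀ → T6.IsBiInv (T6.InU 0) (P51.ext51 (T a) (φ a) w) ∧
        T6.HasFinSupp (T6.InU 0) (P51.ext51 (T a) (φ a) w) := by
    intro Ω _ τ T φ Fr hfam a w hw
    unfold P51.ext51
    split_ifs with h
    · have := hfam.reg a w h
      rwa [hlev.1 w hw] at this
    · exact hUR _ 0
  -- the components of the products
  obtain ⟨χu, hχu1, hχu2⟩ : ∃ χu : Ω₁ × Ω₂ → ∀ w : HeightOneSpectrum (𝓞 F),
      GL (Fin 2) (w.adicCompletion F) → ℂ,
      (∀ (p : Ω₁ × Ω₂) (w : HeightOneSpectrum (𝓞 F)), w ∈ T₀' → χu p w = φ2 p.2 w) ∧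
      ∀ (p : Ω₁ × Ω₂) (w : HeightOneSpectrum (𝓞 F)), w ∉ T₀' →
        T6.IsConv (T6.InU 0) (P51.ext51 (T₁' p.1) (φ1 p.1) w)
          (P51.ext51 (T₂' p.2) (φ2 p.2) w) (χu p w) := by
    have hex : ∀ (p : Ω₁ × Ω₂) (w : HeightOneSpectrum (𝓞 F)), w ∉ T₀' →
        ∃ χ, T6.IsConv (T6.InU 0) (P51.ext51 (T₁' p.1) (φ1 p.1) w)
          (P51.ext51 (T₂' p.2) (φ2 p.2) w) χ :=
      fun p w hw => hEx _ 0 _ _ (hextU T₁' φ1 Φ1 famU1 p.1 w hw).1
        (hextU T₁' φ1 Φ1 famU1 p.1 w hw).2 (hextU T₂' φ2 Φ2 famU2 p.2 w hw).1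
        (hextU T₂' φ2 Φ2 famU2 p.2 w hw).2
    refine ⟨fun p w => if hw : w ∈ T₀' then φ2 p.2 w else (hex p w hw).choose, ?_, ?_⟩
    · intro p w hw
      simp only [dif_pos hw]
    · intro p w hw
      simp only [dif_neg hw]
      exact (hex p w hw).choose_spec
  obtain ⟨χd0, hχd01, hχd02⟩ : ∃ χd0 : Ω₁ × Ω₂ → ∀ v : HeightOneSpectrum (𝓞 ℚ),
      GL (Fin 2) (v.adicCompletion ℚ) → ℂ,
      (∀ (p : Ω₁ × Ω₂) (v : HeightOneSpectrum (𝓞 ℚ)), v ∈ T₀ → χd0 p v = f2 p.2 v) ∧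
      ∀ (p : Ω₁ × Ω₂) (v : HeightOneSpectrum (𝓞 ℚ)), v ∉ T₀ →
        T6.IsConv (T6.InU 0) (P51.ext51 (T₁ p.1) (f1 p.1) v)
          (P51.ext51 (T₂ p.2) (f2 p.2) v) (χd0 p v) := by
    have hex : ∀ (p : Ω₁ × Ω₂) (v : HeightOneSpectrum (𝓞 ℚ)), v ∉ T₀ →
        ∃ χ, T6.IsConv (T6.InU 0) (P51.ext51 (T₁ p.1) (f1 p.1) v)
          (P51.ext51 (T₂ p.2) (f2 p.2) v) χ :=
      fun p v hv => hEx _ 0 _ _ (hextD _ T₁ f1 F01 famD10 p.1 v hv).1
        (hextD _ T₁ f1 F01 famD10 p.1 v hv).2 (hextD _ T₂ f2 F02 famD20 p.2 v hv).1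
        (hextD _ T₂ f2 F02 famD20 p.2 v hv).2
    refine ⟨fun p v => if hv : v ∈ T₀ then f2 p.2 v else (hex p v hv).choose, ?_, ?_⟩
    · intro p v hv
      simp only [dif_pos hv]
    · intro p v hv
      simp only [dif_neg hv]
      exact (hex p v hv).choose_spec
  obtain ⟨χd, hχd1, hχd2⟩ : ∃ χd : Ω₁ × Ω₂ → ∀ v : HeightOneSpectrum (𝓞 ℚ),
      GL (Fin 2) (v.adicCompletion ℚ) → ℂ,
      (∀ (p : Ω₁ × Ω₂) (x : GL (Fin 2) (B.u.adicCompletion ℚ)),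
        χd p B.u x = t * χd0 p B.u x) ∧
      ∀ (p : Ω₁ × Ω₂) (v : HeightOneSpectrum (𝓞 ℚ)), v ≠ B.u → χd p v = χd0 p v := by
    refine ⟨fun p v => if v = B.u then (fun x => t * χd0 p v x) else χd0 p v, ?_, ?_⟩
    · intro p x
      simp only [if_true]
    · intro p v hv
      simp only [if_neg hv]
  -- the local convolutions at the places of the products
  have hconvU : ∀ (p : Ω₁ × Ω₂) (w : HeightOneSpectrum (𝓞 F)), w ∈ T₁' p.1 ∪ T₂' p.2 →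
      T6.IsConv (T6.InU (n w)) (P51.ext51 (T₁' p.1) (φ1 p.1) w)
        (P51.ext51 (T₂' p.2) (φ2 p.2) w) (χu p w) := by
    intro p w _
    by_cases hw : w ∈ T₀'
    · obtain ⟨v, hv, hvw⟩ := (hT₀' w).1 hw
      have e1 : P51.ext51 (T₁' p.1) (φ1 p.1) w = unitFn893 (n w) := by
        unfold P51.ext51
        rw [if_pos (famU1.sub p.1 hw)]
        exact (A1 p.1).2.2.2.1 v hv w hvw
      have e2 : P51.ext51 (T₂' p.2) (φ2 p.2) w = φ2 p.2 w := by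
        unfold P51.ext51
        rw [if_pos (famU2.sub p.2 hw)]
      rw [e1, e2, hχu1 p w hw]
      exact hUn _ (n w) _ (famU2.reg p.2 w (famU2.sub p.2 hw)).1
    · rw [hn0 w hw]
      exact hχu2 p w hw
  have hconvD : ∀ (p : Ω₁ × Ω₂) (v : HeightOneSpectrum (𝓞 ℚ)), v ∈ T₁ p.1 ∪ T₂ p.2 →
      T6.IsConv (T6.InU (m v)) (P51.ext51 (T₁ p.1) (f1 p.1) v)
        (P51.ext51 (T₂ p.2) (f2 p.2) v) (χd0 p v) := by
    intro p v _
    by_cases hv : v ∈ T₀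
    · have e1 : P51.ext51 (T₁ p.1) (f1 p.1) v = unitFn893 (m v) := by
        unfold P51.ext51
        rw [if_pos (famD10.sub p.1 hv)]
        exact (A1 p.1).2.2.1 v hv
      have e2 : P51.ext51 (T₂ p.2) (f2 p.2) v = f2 p.2 v := by
        unfold P51.ext51
        rw [if_pos (famD20.sub p.2 hv)]
      rw [e1, e2, hχd01 p v hv]
      exact hUn _ (m v) _ (famD20.reg p.2 v (famD20.sub p.2 hv)).1
    · rw [hlev.1 v hv]
      exact hχd02 p v hv
  obtain ⟨testU, contU, suppU, intU⟩ :=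
    hUp Ω₁ ν₁ Ω₂ ν₂ T₁' φ1 Φ1 T₂' φ2 Φ2 χu famU1 famU2 hconvU
  obtain ⟨testD0, contD0, suppD0, intD0⟩ :=
    hDn QWt.w0.type Ω₁ ν₁ Ω₂ ν₂ T₁ f1 F01 T₂ f2 F02 χd0 famD10 famD20 hconvD
  obtain ⟨testD1, contD1, suppD1, intD1⟩ :=
    hDn QWt.w1.type Ω₁ ν₁ Ω₂ ν₂ T₁ f1 F11 T₂ f2 F12 χd0 famD11 famD21 hconvD
  have hscale : ∀ (Fr : GL (Fin 2) ℝ → ℂ) (p : Ω₁ × Ω₂) (h : G ℚ),
      pureQ298 (T₁ p.1 ∪ T₂ p.2) (χd p) (fun x => lam * Fr x) h
        = t * (lam * pureQ298 (T₁ p.1 ∪ T₂ p.2) (χd0 p) Fr h) := by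
    intro Fr p h
    rw [pureQ_scale563 _ (χd0 p) (χd p) _ B.u
      (Finset.mem_union_left _ ((A1 p.1).1 hu0)) t (hχd1 p) (hχd2 p) h, pureQ_scaleR563]
  have hCt : ∀ x : ℂ, a * ((cd : ℂ) / (cu : ℂ)) / (t * lam) * (t * (lam * x))
      = a * ((cd : ℂ) / (cu : ℂ)) * x := by
    intro x
    field_simp
  -- the three facts downstairs, for one weight
  have hdown : ∀ (τ : G ℚ → ℂ) (Fr₁ : Ω₁ → GL (Fin 2) ℝ → ℂ) (Fr₂ : Ω₂ → GL (Fin 2) ℝ → ℂ)
      (f₁ f₂ : G ℚ → ℂ),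
      (∀ p : Ω₁ × Ω₂, T5.IsTestFn 𝔫 τ
        (pureQ298 (T₁ p.1 ∪ T₂ p.2) (χd0 p)
          (@T6.convInt _ _ (borel _) μr (Fr₁ p.1) (Fr₂ p.2)))) →
      Continuous (fun q : (Ω₁ × Ω₂) × G ℚ =>
        pureQ298 (T₁ q.1.1 ∪ T₂ q.1.2) (χd0 q.1)
          (@T6.convInt _ _ (borel _) μr (Fr₁ q.1.1) (Fr₂ q.1.2)) q.2) →
      (∃ C : Set (G ℚ), IsCompact C ∧ ∀ (p : Ω₁ × Ω₂) (h : G ℚ),
        pureQ298 (T₁ p.1 ∪ T₂ p.2) (χd0 p)
          (@T6.convInt _ _ (borel _) μr (Fr₁ p.1) (Fr₂ p.2)) h ≠ 0 → h ∈ C) →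
      (∀ h : G ℚ,
        T5.conv B.R.μ (fun x => ∫ a, pureQ298 (T₁ a) (f1 a) (Fr₁ a) x ∂ν₁)
            (fun x => ∫ b, pureQ298 (T₂ b) (f2 b) (Fr₂ b) x ∂ν₂) h
          = ∫ p, pureQ298 (T₁ p.1 ∪ T₂ p.2) (χd0 p)
              (@T6.convInt _ _ (borel _) μr (Fr₁ p.1) (Fr₂ p.2)) h
              ∂(cd • (ν₁.prod ν₂))) →
      (∀ h : G ℚ, f₁ h = ∫ a, 1 * pureQ298 (T₁ a) (f1 a) (Fr₁ a) h ∂ν₁) →
      (∀ h : G ℚ, f₂ h = ∫ b, a * pureQ298 (T₂ b) (f2 b) (Fr₂ b) h ∂ν₂) →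
      (∀ p : Ω₁ × Ω₂, T5.IsTestFn 𝔫 τ (fun h => a * ((cd : ℂ) / (cu : ℂ)) / (t * lam)
        * pureQ298 (T₁ p.1 ∪ T₂ p.2) (χd p)
          (fun x => lam * @T6.convInt _ _ (borel _) μr (Fr₁ p.1) (Fr₂ p.2) x) h)) ∧
      Continuous (fun q : (Ω₁ × Ω₂) × G ℚ => a * ((cd : ℂ) / (cu : ℂ)) / (t * lam)
        * pureQ298 (T₁ q.1.1 ∪ T₂ q.1.2) (χd q.1)
          (fun x => lam * @T6.convInt _ _ (borel _) μr (Fr₁ q.1.1) (Fr₂ q.1.2) x) q.2) ∧
      (∃ C : Set (G ℚ), IsCompact C ∧ ∀ (p : Ω₁ × Ω₂) (h : G ℚ),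
        pureQ298 (T₁ p.1 ∪ T₂ p.2) (χd p)
          (fun x => lam * @T6.convInt _ _ (borel _) μr (Fr₁ p.1) (Fr₂ p.2) x) h ≠ 0 → h ∈ C) ∧
      ∀ h : G ℚ, T5.conv B.R.μ f₁ f₂ h
        = ∫ p, a * ((cd : ℂ) / (cu : ℂ)) / (t * lam)
            * pureQ298 (T₁ p.1 ∪ T₂ p.2) (χd p)
              (fun x => lam * @T6.convInt _ _ (borel _) μr (Fr₁ p.1) (Fr₂ p.2) x) h
            ∂(cu • (ν₁.prod ν₂)) := by
    intro τ Fr₁ Fr₂ f₁ f₂ testD contD suppD intD hf₁ hf₂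
    refine ⟨?_, ?_, ?_, ?_⟩
    · intro p
      have := hTS 𝔫 τ _ (a * ((cd : ℂ) / (cu : ℂ))) (testD p)
      have e : (fun h : G ℚ => a * ((cd : ℂ) / (cu : ℂ)) / (t * lam)
            * pureQ298 (T₁ p.1 ∪ T₂ p.2) (χd p)
              (fun x => lam * @T6.convInt _ _ (borel _) μr (Fr₁ p.1) (Fr₂ p.2) x) h)
          = fun h : G ℚ => a * ((cd : ℂ) / (cu : ℂ))
            * pureQ298 (T₁ p.1 ∪ T₂ p.2) (χd0 p)
              (@T6.convInt _ _ (borel _) μr (Fr₁ p.1) (Fr₂ p.2)) h := by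
        funext h
        rw [hscale _ p h, hCt]
      rw [e]
      exact this
    · have := (continuous_const (y := a * ((cd : ℂ) / (cu : ℂ)))).mul contD
      refine this.congr fun q => ?_
      rw [hscale _ q.1 q.2, hCt]
      rfl
    · obtain ⟨C, hC, hC'⟩ := suppD
      refine ⟨C, hC, fun p h hne => hC' p h fun h0 => hne ?_⟩
      rw [hscale _ p h, h0, mul_zero, mul_zero]
    · intro h
      have e1 : f₁ = fun x => ∫ a, pureQ298 (T₁ a) (f1 a) (Fr₁ a) x ∂ν₁ := by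
        funext x
        rw [hf₁ x]
        simp only [one_mul]
      have e2 : f₂ = fun x => a * ∫ b, pureQ298 (T₂ b) (f2 b) (Fr₂ b) x ∂ν₂ := by
        funext x
        rw [hf₂ x, integral_const_mul]
      rw [e1, e2, conv_const_mulQ563, intD h, integral_smul_nnreal_measure,
        integral_smul_nnreal_measure]
      have e3 : (fun p : Ω₁ × Ω₂ => a * ((cd : ℂ) / (cu : ℂ)) / (t * lam)
            * pureQ298 (T₁ p.1 ∪ T₂ p.2) (χd p)
              (fun x => lam * @T6.convInt _ _ (borel _) μr (Fr₁ p.1) (Fr₂ p.2) x) h)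
          = fun p : Ω₁ × Ω₂ => a * ((cd : ℂ) / (cu : ℂ))
            * pureQ298 (T₁ p.1 ∪ T₂ p.2) (χd0 p)
              (@T6.convInt _ _ (borel _) μr (Fr₁ p.1) (Fr₂ p.2)) h := by
        funext p
        rw [hscale _ p h, hCt]
      rw [e3, integral_const_mul, NNReal.smul_def, NNReal.smul_def, Complex.real_smul,
        Complex.real_smul]
      have hcu' : ((cu : ℝ) : ℂ) ≠ 0 := by exact_mod_cast hcu
      field_simp
  obtain ⟨t0, c0, s0, e0⟩ := hdown QWt.w0.type F01 F02 f0₁ f0₂ testD0 contD0 suppD0 intD0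
    Af0 Bf0
  obtain ⟨t1, c1, s1, e1⟩ := hdown QWt.w1.type F11 F12 f1₁ f1₂ testD1 contD1 suppD1 intD1
    Af1 Bf1
  refine ⟨Ω₁ × Ω₂, inferInstance, inferInstance, inferInstance, inferInstance, inferInstance,
    inferInstance, cu • (ν₁.prod ν₂), inferInstance,
    fun p => T₁ p.1 ∪ T₂ p.2, fun p => T₁' p.1 ∪ T₂' p.2, χu,
    fun p w => @T6.convInt _ _ (borel _) μc (Φ1 p.1 w) (Φ2 p.2 w), χd,
    fun p x => lam * @T6.convInt _ _ (borel _) μr (F01 p.1) (F02 p.2) x,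
    fun p x => lam * @T6.convInt _ _ (borel _) μr (F11 p.1) (F12 p.2) x,
    ?_, testU, t0, t1, contU, c0, c1, suppU, s0, s1, ?_, e0, e1⟩
  · -- the local shape
    intro p
    refine ⟨fun v hv => Finset.mem_union_left _ ((A1 p.1).1 hv), ?_, ?_⟩
    · intro w
      rw [Finset.mem_union, (A1 p.1).2.1 w, (B1 p.2).2.1 w]
      constructor
      · rintro (⟨v, hv, hw⟩ | ⟨v, hv, hw⟩)
        · exact ⟨v, Finset.mem_union_left _ hv, hw⟩
        · exact ⟨v, Finset.mem_union_right _ hv, hw⟩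
      · rintro ⟨v, hv, hw⟩
        rcases Finset.mem_union.1 hv with h | h
        · exact Or.inl ⟨v, h, hw⟩
        · exact Or.inr ⟨v, h, hw⟩
    · refine ⟨T₁ p.1, T₂ p.2, φ1 p.1, Φ1 p.1, f1 p.1, F01 p.1, F11 p.1, φo p.2, Φ2 p.2,
        fo p.2, F02 p.2, F12 p.2, rfl, (A1 p.1).1, (B1 p.2).1, (A1 p.1).2.2, hLB p.2,
        ?_, ?_, ?_, ?_, ?_, fun w => rfl, rfl, rfl⟩
      · intro v hv hvu
        refine ⟨?_, fun w hw => ?_⟩
        · rw [hχd2 p v hvu, hχd01 p v hv]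
          exact (hbad p.2 v hv hvu).1
        · rw [hχu1 p w ((hT₀' w).2 ⟨v, hv, hw⟩)]
          exact (hbad p.2 v hv hvu).2 w hw
      · show χd p B.u = fun x => t * P51.regLoc51 B.u z H k j iwFn893 x
        funext x
        rw [hχd1 p x, hχd01 p B.u hu0, hfu p.2]
      · show χu p (B.o 0) = P51.regLoc51 (B.o 0) z' H' k j iwFn893
        rw [hχu1 p (B.o 0) ((hT₀' _).2 ⟨B.u, hu0, hctx.base.orbit_over 0⟩)]
        exact hφ0 p.2
      · show χu p (B.o 1) = iwFn893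
        rw [hχu1 p (B.o 1) ((hT₀' _).2 ⟨B.u, hu0, hctx.base.orbit_over 1⟩)]
        exact hφ1 p.2
      · intro v hv hv0
        have hvu : v ≠ B.u := fun e => hv0 (e ▸ hu0)
        refine ⟨?_, fun w hw => ?_⟩
        · have h1 := hχd02 p v hv0
          rw [hχd2 p v hvu]
          have e2 : P51.ext51 (T₂ p.2) (f2 p.2) v
              = if v ∈ T₂ p.2 then fo p.2 v else unitFn893 0 := by
            unfold P51.ext51
            by_cases h : v ∈ T₂ p.2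
            · rw [if_pos h, if_pos h]
              exact (hout p.2 v h hv0).1
            · rw [if_neg h, if_neg h]
          rw [e2] at h1
          exact h1
        · have hw0 : w ∉ T₀' := fun h => hv0 ((mem_over_iffQ563 hBU hT₀' hw).1 h)
          have h1 := hχu2 p w hw0
          have e1 : P51.ext51 (T₁' p.1) (φ1 p.1) w
              = if v ∈ T₁ p.1 then φ1 p.1 w else unitFn893 0 := by
            unfold P51.ext51
            by_cases h : v ∈ T₁ p.1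
            · rw [if_pos h, if_pos ((mem_over_iffQ563 hBU (A1 p.1).2.1 hw).2 h)]
            · rw [if_neg h,
                if_neg (fun h' => h ((mem_over_iffQ563 hBU (A1 p.1).2.1 hw).1 h'))]
          have e2 : P51.ext51 (T₂' p.2) (φ2 p.2) w
              = if v ∈ T₂ p.2 then φo p.2 w else unitFn893 0 := by
            unfold P51.ext51
            by_cases h : v ∈ T₂ p.2
            · rw [if_pos h, if_pos ((mem_over_iffQ563 hBU (B1 p.2).2.1 hw).2 h)]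
              exact (hout p.2 v h hv0).2 w hw
            · rw [if_neg h,
                if_neg (fun h' => h ((mem_over_iffQ563 hBU (B1 p.2).2.1 hw).1 h'))]
          rw [e1, e2] at h1
          exact h1
  · intro h
    have e1 : φ₁' = fun x => ∫ a, pure305 (T₁' a) (φ1 a) (Φ1 a) x ∂ν₁ := funext Aφ
    have e2 : φ₂' = fun x => ∫ b, pure305 (T₂' b) (φ2 b) (Φ2 b) x ∂ν₂ := funext Bφ
    rw [e1, e2]
    exact intU h

end Top

end Fermat.Agent.LT.T7.PQ563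

end
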