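import Mathlib
import Fermat.Agent.LT.T7.H563.ProdMtQSpec
import Fermat.Agent.LT.T7.H298.MatchQGlue

/-!
# Row LT, tower T7, node T7.L2Q.1.H2b `CQ801.ProdMtQC801`: FIRST CUT (helper563) -- Top

OFF-MAIN.  No hole, nothing assumed.  ADDITIVE.

    prodMtQC801_of563 : LevelUniqC893 ℚ → LevelUniqC893 F → LevelAtC893 ℚ F → UnramQC563 F
        → ProdShapeQC563 F → SphHypQC563 F
        → ∀ κ nowhere zero, CQ801.ProdMtQC801 F κ                             (VERBATIM)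
-/

set_option autoImplicit false

open AutomorphicForm IsDedekindDomain NumberField MeasureTheory
open scoped ComplexConjugate

noncomputable section

namespace Fermat.Agent.LT.T7.PQ563

open Fermat.Agent.LT.H556 Fermat.Agent.LT.H556.A0 Fermat.Agent.LT.T7 Fermat.Agent.LT.T7.H305
  Fermat.Agent.LT.T7.L2Q Fermat.Agent.LT.T7.H893 Fermat.Agent.LT.T7.H962
  Fermat.Agent.LT.T7.H732 Fermat.Agent.LT.T7.MQ298 Fermat.Agent.LT.T7.CQ801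

attribute [local instance] Fermat.Agent.LT.T5.instMeasurableSpaceG

section Top

variable {F : Type} [Field F] [NumberField F]

/-- `IsAvgPureQ801` is monotone in the local condition (on the sets `T ⊇ T₀`). -/
theorem isAvgPureQ_mono563 {𝔑 : Ideal (𝓞 F)} {𝔫 : Ideal (𝓞 ℚ)}
    {T₀ : Finset (HeightOneSpectrum (𝓞 ℚ))} {L L' : LocCondQ801 F} {c : ℂ}
    {φ' : G F → ℂ} {f0 f1 : G ℚ → ℂ}
    (hLL : ∀ (T : Finset (HeightOneSpectrum (𝓞 ℚ)))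
      (φ₀ : ∀ w : HeightOneSpectrum (𝓞 F), GL (Fin 2) (w.adicCompletion F) → ℂ)
      (Φ : InfinitePlace F → GL (Fin 2) ℂ → ℂ)
      (f₀ : ∀ v : HeightOneSpectrum (𝓞 ℚ), GL (Fin 2) (v.adicCompletion ℚ) → ℂ)
      (F0 F1 : GL (Fin 2) ℝ → ℂ), T₀ ⊆ T → L T φ₀ Φ f₀ F0 F1 → L' T φ₀ Φ f₀ F0 F1)
    (h : IsAvgPureQ801 𝔑 𝔫 T₀ L c φ' f0 f1) : IsAvgPureQ801 𝔑 𝔫 T₀ L' c φ' f0 f1 := by
  obtain ⟨Ω, iT, iC, i2, iS, iM, iB, ν, iF, T, T', φ₀, Φc, f₀, F0, F1, hL, hrest⟩ := h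
  exact ⟨Ω, iT, iC, i2, iS, iM, iB, ν, iF, T, T', φ₀, Φc, f₀, F0, F1,
    fun a => ⟨(hL a).1, (hL a).2.1, hLL _ _ _ _ _ _ (hL a).1 (hL a).2.2⟩, hrest⟩

/-- A place over a place which does not divide `𝔫` does not divide `𝔫 𝒪_F`. -/
theorem dvd_of_placeOverQ563 {v : HeightOneSpectrum (𝓞 ℚ)} {w : HeightOneSpectrum (𝓞 F)}
    (hvw : PlaceOver ℚ F v w) {𝔫 : Ideal (𝓞 ℚ)} (h : w.asIdeal ∣ upI (K' := F) 𝔫) :
    v.asIdeal ∣ 𝔫 := by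
  rw [Ideal.dvd_iff_le] at h ⊢
  intro x hx
  have hy : algebraMap (𝓞 ℚ) (𝓞 F) x ∈ w.asIdeal := h (Ideal.mem_map_of_mem _ hx)
  exact (hvw x (algebraMap (𝓞 ℚ) (𝓞 F) x) rfl).2 hy

/-- **THE TOP OF THE FIRST CUT of `ProdMtQC801`.** -/
theorem prodMtQC801_of563 (hU : LevelUniqC893 ℚ) (hU' : LevelUniqC893 F)
    (hAt : LevelAtC893 ℚ F) (hUnr : UnramQC563 F) (hShape : ProdShapeQC563 F)
    (hSph : SphHypQC563 F)
    (κ : KapFnQ801 F) (hκ : ∀ D μr μc T₀ n m, κ D μr μc T₀ n m ≠ 0) : ProdMtQC801 F κ := by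
  classical
  intro h3 hF Φ B hB hRam g hg 𝔫 μr μc hμr hμc
  by_cases hex : ∃ (T₀ : Finset (HeightOneSpectrum (𝓞 ℚ)))
      (n n₀ : HeightOneSpectrum (𝓞 F) → ℕ) (m : HeightOneSpectrum (𝓞 ℚ) → ℕ),
      (∀ v : HeightOneSpectrum (𝓞 ℚ), v ∈ T₀ ↔ v.asIdeal ∣ 𝔫) ∧
      IsLevelOf893 𝔫 m ∧ IsLevelOf893 (upI (K' := F) 𝔫) n ∧ IsLevelOf893 B.𝔑₀ n₀
  · obtain ⟨T₀, n, n₀, m, hT₀, hm, hn, hn₀⟩ := hex
    obtain ⟨c, c₀, hc, hc₀, hS⟩ := hShape h3 hF Φ B hB hRam g hg 𝔫 μr μc hμr hμc T₀ n n₀ m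
      hT₀ hm hn hn₀
    have ha : κ ((toBase962_732 B).comp 𝔫) μr μc T₀ n m / c₀ ≠ 0 :=
      div_ne_zero (hκ _ _ _ _ _ _) hc₀
    refine ⟨c, κ ((toBase962_732 B).comp 𝔫) μr μc T₀ n m / c₀, hc, ha, ?_⟩
    intro E hE hOp hDec X k mm hX
    obtain ⟨T₀', n', n₀', m', hT₀', hm', hn', hn₀', hA, hB2⟩ := hDec
    rw [hE] at hT₀' hm' hn' hA hB2
    obtain rfl : T₀ = T₀' := Finset.ext (fun v => by rw [hT₀', hT₀])
    obtain rfl : m = m' := hU 𝔫 m m' hm hm'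
    obtain rfl : n = n' := hU' (upI (K' := F) 𝔫) n n' hn hn'
    obtain rfl : n₀ = n₀' := hU' B.𝔑₀ n₀ n₀' hn₀ hn₀'
    have h1 := hS _ ha E hE hOp hA hB2 X k mm hX
    rw [div_mul_cancel₀ _ hc₀] at h1
    have h𝔫 : 𝔫 ≠ ⊥ := by rw [← hE]; exact hOp.level_ne
    have hB962 : IsL2QBase962 Φ (toBase962_732 B) := isL2QBase962_of60_732 hB
    have hD : IsCompData ((toBase962_732 B).comp 𝔫) := isCompData_comp298 hB962 h𝔫
    have hcyc : IsCycExt ℚ F ((toBase962_732 B).comp 𝔫).l := isCycExt_of_imagQuad298 hF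
    have hS' : ∀ w : HeightOneSpectrum (𝓞 F), w ∈ B.S' ↔ w.asIdeal ∣ upI (K' := F) 𝔫 := by
      intro w
      have h := hOp.mem_S'_g w
      rwa [hE] at h
    have hUn : UnramOut305 (K' := F) T₀ := by
      intro v hv w hvw
      refine hUnr h3 hF Φ B hB hRam v w hvw (fun hw => hv ?_)
      rw [hT₀]
      exact dvd_of_placeOverQ563 hvw ((hS' w).1 hw)
    have hLv : IsLevelAt305 T₀ n m := hAt 𝔫 T₀ n m hT₀ hm hn
    refine ⟨μr, μc, T₀, n, m, hμr, hμc, hUn, hLv, isAvgPureQ_mono563 ?_ h1⟩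
    intro T φ₀ Φc f₀ F0 F1 hT hL
    exact hSph hF ((toBase962_732 B).comp 𝔫) hD hcyc rfl μr hμr μc hμc T₀ hUn n m hLv T hT
      φ₀ Φc f₀ F0 F1 hL.1 hL.2
  · refine ⟨1, 1, one_ne_zero, one_ne_zero, ?_⟩
    intro E hE hOp hDec
    exfalso
    obtain ⟨T₀', n', n₀', m', hT₀', hm', hn', hn₀', -, -⟩ := hDec
    rw [hE] at hT₀' hm' hn'
    exact hex ⟨T₀', n', n₀', m', hT₀', hm', hn', hn₀'⟩

end Top

end Fermat.Agent.LT.T7.PQ563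

end
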