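import Mathlib
import Fermat.Agent.LT.T7.H563.ProdShapeQSpec
import Fermat.Agent.LT.T7.H563.ProdMtQTop

/-!
# Row LT, tower T7, node T7.L2Q.1.H2b.4 `PQ563.ProdShapeQC563` (row 2919, helper563): the tops

OFF-MAIN.  No hole, nothing assumed.  ADDITIVE.

    prodShapeQC_of563 : GlobProdQC563 F → LocProdQC563 F → ProdShapeQC563 F
    globProdQC_of563  : OpAvgQC563 F → ConvAvgQC563 F → GlobProdQC563 F
    locProdQC_of563   : RegOrbQC563 F → SplitOrbQC563 F → SphProdQC563 F → ArchProdQC563 F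
                          → LocProdQC563 F
    prodMtQC801_of_leaves563 : the leaves → ∀ κ nowhere zero, CQ801.ProdMtQC801 F κ
-/

set_option autoImplicit false

open AutomorphicForm IsDedekindDomain NumberField MeasureTheory
open scoped ComplexConjugate

noncomputable section

namespace Fermat.Agent.LT.T7.PQ563

open Fermat.Agent.LT.H556 Fermat.Agent.LT.H556.A0 Fermat.Agent.LT.T7 Fermat.Agent.LT.T7.H305
  Fermat.Agent.LT.T7.L2Q Fermat.Agent.LT.T7.H893 Fermat.Agent.LT.T7.H962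
  Fermat.Agent.LT.T7.H732 Fermat.Agent.LT.T7.MQ298 Fermat.Agent.LT.T7.CQ801

attribute [local instance] Fermat.Agent.LT.T5.instMeasurableSpaceG

section Tops

variable {F : Type} [Field F] [NumberField F]

/-- The coset systems of pre-data with the operator properties. -/
theorem isSysQ_of_op563 {Φ : HeckeEigensystem F ℂ} {B : L2Q.H60.L2QBase F} {g : G F}
    {𝔫 : Ideal (𝓞 ℚ)} {E : L2QPre732 F} (hE : E.𝔫 = 𝔫)
    (hOp : IsL2QPreOp732 Φ (toBase962_732 B) g E) : IsSysQ563 B 𝔫 E.H' E.z' E.H E.z :=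
  { level_ne := hE ▸ hOp.level_ne
    level_g := hE ▸ hOp.level_g
    mem_S'_g := hE ▸ hOp.mem_S'_g
    u_level := hE ▸ hOp.u_level
    sys' := hOp.sys'
    unif' := hOp.unif'
    sys := hOp.sys
    unif := hOp.unif }

/-- **THE GLOBAL NODE from its two nodes.** -/
theorem globProdQC_of563 (h1 : OpAvgQC563 F) (h2 : ConvAvgQC563 F) : GlobProdQC563 F := by
  intro Φ B g 𝔫 μr μc T₀ n n₀ m hctx
  obtain ⟨c₁, hc₁, h⟩ := h2 Φ B g 𝔫 μr μc T₀ n n₀ m hctx
  refine ⟨c₁, hc₁, ?_⟩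
  intro c t lam a hc ht hlam ha E hE hOp hA1 hA2 X k j hX
  exact h c t lam a hc ht hlam ha E.H' E.z' E.H E.z (isSysQ_of_op563 hE hOp) k j _ _ _ _ _ _
    (hA1 X hX) (h1 Φ B g 𝔫 μr μc T₀ n n₀ m hctx c a hc ha E hE hOp hA2 k j)

/-- **THE LOCAL NODE from its leaves.** -/
theorem locProdQC_of563 (h1 : RegOrbQC563 F) (h5 : SplitOrbQC563 F) (h6 : SphProdQC563 F)
    (h7 : ArchProdQC563 F) : LocProdQC563 F := by
  classical
  intro Φ B g 𝔫 μr μc T₀ n n₀ m hctx
  obtain ⟨t, ht, hsplit⟩ := h5 Φ B g 𝔫 μr μc T₀ n n₀ m hctx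
  obtain ⟨c, lam, hc, hlam, harchP⟩ := h7 hctx.quad μr hctx.haar_r μc hctx.haar_c
  refine ⟨c, t, lam, hc, ht, hlam, ?_⟩
  intro H' z' H z hsys k j T φ₀ Φ' f₀ F0 F1 hLP
  have hloc : IsLocQ563 Φ B g 𝔫 μr μc c T₀ n n₀ m H' z' H z t lam k j T φ₀ Φ' f₀ F0 F1 :=
    ⟨hctx, hsys, hc, ht, hlam, hLP⟩
  obtain ⟨T₁, T₂, φ₁, Φ₁, f₁, F0₁, F1₁, φ₂, Φ₂, f₂, F0₂, F1₂, hT, hT₁, hT₂, hA, hB, hbad, hfu,
    hφ0, hφ1, hsph, hΦ, hF0, hF1⟩ := hLP
  obtain ⟨Φd, F0d, F1d, hBh⟩ := hB.1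
  have hAok : ArchOkQ801 c Φ₁ F0₁ F1₁ := hA.2.2.2
  have hBok : ArchOkQ801 c Φ₂ F0₂ F1₂ := hB.2.2.2.2.2
  obtain ⟨haU, ha0, ha1, haM⟩ := harchP Φ₁ Φ₂ F0₁ F1₁ F0₂ F1₂ hAok hBok
  -- the two kinds of places of the level
  have hcase : ∀ v ∈ T₀, v = B.u ∨ (v ∈ T₀.erase B.u ∧ v ≠ B.u) := by
    intro v hv0
    by_cases hvu : v = B.u
    · exact Or.inl hvu
    · exact Or.inr ⟨Finset.mem_erase.2 ⟨hvu, hv0⟩, hvu⟩
  have hregu : P51.RegAt51 n m φ₀ f₀ B.u :=
    h1 _ _ _ _ _ _ _ _ _ _ _ _ _ _ _ _ _ _ _ _ _ _ _ _ _ hloc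
  refine ⟨?_, h6 _ _ _ _ _ _ _ _ _ _ _ _ _ _ _ _ _ _ _ _ _ _ _ _ _ hloc⟩
  exact
    { inv_up := by
        intro v hv w hw
        rcases hcase v hv with hvu | ⟨hve, hvu⟩
        · subst hvu
          exact hregu.1 w hw
        · rw [(hbad v hv hvu).2 w hw]
          exact hBh.inv_up v hve w hw
      inv_down := by
        intro v hv
        rcases hcase v hv with hvu | ⟨hve, hvu⟩
        · subst hvu
          exact hregu.2
        · rw [(hbad v hv hvu).1]
          exact hBh.inv_down v hve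
      arch_up := by
        intro w
        rw [hΦ w]
        exact haU w
      arch_down0 := by
        rw [hF0]
        exact ha0
      arch_down1 := by
        rw [hF1]
        exact ha1
      inert := by
        intro v hv
        rcases hcase v hv with hvu | ⟨hve, hvu⟩
        · subst hvu
          intro w _ huniq
          exfalso
          have e0 := huniq (B.o 0) (hctx.base.orbit_over 0)
          have e1 := huniq (B.o 1) (hctx.base.orbit_over 1)
          exact hctx.base.orbit_ne 1 Nat.zero_lt_one Nat.one_lt_two (e1.trans e0.symm)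
        · intro w hw huniq e i sw hi hs hext
          have := hBh.inert v hve w hw huniq e i sw hi hs hext
          rw [(hbad v hv hvu).2 w hw, (hbad v hv hvu).1]
          exact this
      split := by
        intro v hv
        rcases hcase v hv with hvu | ⟨hve, hvu⟩
        · subst hvu
          exact hsplit c H' z' H z lam k j T φ₀ Φ' f₀ F0 F1 hloc
        · intro hex
          obtain ⟨w, i, a1, a2, a3, a4, a5, a6, a7⟩ := hBh.split v hve hex
          refine ⟨w, i, a1, a2, a3, a4, a5, a6, ?_⟩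
          have e : (fun (j : ℕ) (x : GL (Fin 2) (v.adicCompletion ℚ)) => φ₀ (w j)
                (Matrix.GeneralLinearGroup.map ((i j : v.adicCompletion ℚ ≃+* _) :
                  v.adicCompletion ℚ →+* (w j).adicCompletion F) x))
              = fun (j : ℕ) (x : GL (Fin 2) (v.adicCompletion ℚ)) =>
                (fun w : HeightOneSpectrum (𝓞 F) => dblFn893 (n₀ w) (finGL305 w g)) (w j)
                  (Matrix.GeneralLinearGroup.map ((i j : v.adicCompletion ℚ ≃+* _) :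
                    v.adicCompletion ℚ →+* (w j).adicCompletion F) x) := by
            funext j x
            rw [(hbad v hv hvu).2 (w j) (a1 j)]
          rw [e, (hbad v hv hvu).1]
          exact a7
      arch := by
        intro w
        rw [hΦ w, hF0, hF1]
        exact haM w }

/-- **THE NODE `ProdShapeQC563` from the cut.** -/
theorem prodShapeQC_of563 (hG : GlobProdQC563 F) (hL : LocProdQC563 F) :
    ProdShapeQC563 F := by
  intro h3 hF Φ B hB hRam g hg 𝔫 μr μc hμr hμc T₀ n n₀ m hT₀ hm hn hn₀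
  have hctx : IsCtxQ563 Φ B g 𝔫 μr μc T₀ n n₀ m :=
    { sqrt := h3, quad := hF, base := hB, ram := hRam, bad := hg, haar_r := hμr,
      haar_c := hμc, mem_T₀ := hT₀, lev_m := hm, lev_n := hn, lev_n₀ := hn₀ }
  obtain ⟨c, t, lam, hc, ht, hlam, hLt⟩ := hL Φ B g 𝔫 μr μc T₀ n n₀ m hctx
  obtain ⟨c₁, hc₁, hGc⟩ := hG Φ B g 𝔫 μr μc T₀ n n₀ m hctx
  refine ⟨c, c₁ / (t * lam), hc, div_ne_zero hc₁ (mul_ne_zero ht hlam), ?_⟩
  intro a ha E hE hOp hA1 hA2 X k mm hX
  have hprod := hGc c t lam a hc ht hlam ha E hE hOp hA1 hA2 X k mm hX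
  rw [mul_div_assoc] at hprod
  exact isAvgPureQ_mono563
    (fun T φ₀ Φ' f₀ F0 F1 _ h =>
      hLt E.H' E.z' E.H E.z (isSysQ_of_op563 hE hOp) k mm T φ₀ Φ' f₀ F0 F1 h) hprod

/-- **THE NODE `CQ801.ProdMtQC801` from the leaves of the two cuts.** -/
theorem prodMtQC801_of_leaves563 (hU : LevelUniqC893 ℚ) (hU' : LevelUniqC893 F)
    (hAt : LevelAtC893 ℚ F) (hUnr : UnramQC563 F) (hSph : SphHypQC563 F)
    (hOp : OpAvgQC563 F) (hCv : ConvAvgQC563 F)
    (h1 : RegOrbQC563 F) (h5 : SplitOrbQC563 F) (h6 : SphProdQC563 F) (h7 : ArchProdQC563 F)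
    (κ : KapFnQ801 F) (hκ : ∀ D μr μc T₀ n m, κ D μr μc T₀ n m ≠ 0) : ProdMtQC801 F κ :=
  prodMtQC801_of563 hU hU' hAt hUnr
    (prodShapeQC_of563 (globProdQC_of563 hOp hCv) (locProdQC_of563 h1 h5 h6 h7)) hSph κ hκ

end Tops

end Fermat.Agent.LT.T7.PQ563

end
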