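import Mathlib
import Fermat.Agent.LT.T7.H563.ProdShapeQTop
import Fermat.Agent.LT.T7.H563.ConvAvgQTop

/-!
# Row LT, tower T7, node T7.L2Q.1.H2b `CQ801.ProdMtQC801` (row 2683, helper563): ALL THE CUTS

OFF-MAIN.  No hole, nothing assumed.  ADDITIVE.

    prodMtQC801_of_all563 : (the 21 leaves of the three cuts) → ∀ κ nowhere zero,
        CQ801.ProdMtQC801 F κ                                                  (VERBATIM)
-/

set_option autoImplicit false

open AutomorphicForm IsDedekindDomain NumberField MeasureTheory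
open scoped ComplexConjugate

noncomputable section

namespace Fermat.Agent.LT.T7.PQ563

open Fermat.Agent.LT.H556 Fermat.Agent.LT.H556.A0 Fermat.Agent.LT.T7 Fermat.Agent.LT.T7.H305
  Fermat.Agent.LT.T7.L2Q Fermat.Agent.LT.T7.H893 Fermat.Agent.LT.T7.H962
  Fermat.Agent.LT.T7.H732 Fermat.Agent.LT.T7.MQ298 Fermat.Agent.LT.T7.CQ801

attribute [local instance] Fermat.Agent.LT.T5.instMeasurableSpaceG

variable {F : Type} [Field F] [NumberField F]

/-- **THE NODE `CQ801.ProdMtQC801` from the leaves of the three cuts.** -/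
theorem prodMtQC801_of_all563
    -- levels, ramification (first cut)
    (hU : LevelUniqC893 ℚ) (hU' : LevelUniqC893 F) (hAt : LevelAtC893 ℚ F)
    (hUnr : UnramQC563 F) (hSph : SphHypQC563 F)
    -- the global calculus
    (hOp : OpAvgQC563 F)
    (hFamU : P51.ConvFamC51 F) (hFamD : ConvFamQC563) (hTS : TestSmulQC563)
    (hEx : P51.LocConvExC51) (hUn : P51.UnitConvC51) (hUR : P51.UnitRegC51)
    (hRA : RegAQC563 F) (hRO : RegOpQC563 F) (hOF : P51.OverFinC51 ℚ F)
    (hBU : P51.BelowUniqC51 ℚ F) (hBE : P51.BelowExC51 ℚ F)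
    -- the local algebra
    (h1 : RegOrbQC563 F) (h5 : SplitOrbQC563 F) (h6 : SphProdQC563 F) (h7 : ArchProdQC563 F)
    (κ : KapFnQ801 F) (hκ : ∀ D μr μc T₀ n m, κ D μr μc T₀ n m ≠ 0) : ProdMtQC801 F κ :=
  prodMtQC801_of_leaves563 hU hU' hAt hUnr hSph hOp
    (convAvgQC_of563 hFamU hFamD hTS hEx hUn hUR hRA hRO hOF hBU hBE hAt) h1 h5 h6 h7 κ hκ

end Fermat.Agent.LT.T7.PQ563

end
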