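import Mathlib
import Fermat.Agent.LT.T7.H57.ConstrQSpec

/-!
# Row LT, tower T7, node T7.L2Q.1.H2.4 `CQ57.ProdMtQC57` (registry row 2683, owner helper563):
# THE CALCULUS OF PURE TENSORS -- general leaves (FORM-INDEPENDENT), Spec

OFF-MAIN.  Definitions and frozen Props only.  No hole, nothing assumed.  ADDITIVE (new names
only, all suffixed `563`, namespace `Fermat.Agent.LT.T7.PT563`).  Vocabulary, byte-identical
copies: the closure of `T7/H57/ConstrQSpec.lean` (helper57@396c3f151, sha256 9d2069f7):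
`H305.pure305`, `MQ298.pureQ298`, `T6.IsConv`, `T6.convInt`, `H893.unitFn893`, `H893.dblFn893`.

These leaves do NOT mention the local hypotheses (`LocHyp305`, `LocHyp893`, `LocHypQ298`,
`LocHypQb801`, ...) nor the pre-data: they serve the calculus nodes of ALL forms of record
(cubic `H893.ProdMtCb`, quadratic `CQ57.ProdMtQC57`, `CQ801.ProdMtQC801`, `ProdMtQC885`).

## The leaves

* **PT.1 `ConvPureC563 K`** (`K` totally complex): the convolution of two pure tensors is a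
  constant times the pure tensor of the local convolutions.  The constant `c > 0` depends on the
  Haar measures `μ` (of `GL₂(𝔸_K)`), `μc` (of `GL₂(ℂ)`), on the base set `T₀` and the level
  exponents `m` (zero outside `T₀`) ONLY: not on `T ⊇ T₀`, not on the components.  Finite
  places: convolution with `vol U(m v) = 1` (`T6.IsConv (T6.InU (m v))`, the normalisation of
  the split clause of the local hypotheses); infinite places: `T6.convInt μc`.
* **PT.2 `ConvPureQC563`**: the same over `ℚ` for `MQ298.pureQ298` (one real place, Haar measure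
  `μr` of `GL₂(ℝ)`).
* **PT.3 `ConvAvgC563 K`** (analysis; any number field): the convolution of two averages over
  compact parameter spaces of jointly continuous families with common compact supports is the
  average over the product space of the convolutions; the family of the convolutions is
  jointly continuous and has a common compact support.
* **PT.4 `TrPureC563 K`**, **`TrPureQC563`**: the left translate of a pure tensor by an element
  `b` which is integral with integral inverse outside `T` is the pure tensor of the translated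
  components.
* **PT.5 `LsumDblC563 K`**: the sum of the left translates over a system of representatives of
  `U(𝔑₀) g U(𝔑₀) / U(𝔑₀)` of a pure tensor with UNIT components (of the level `𝔑₀`) at the
  places where `g` is not trivial, and components left invariant under `U(𝔑₀)_v` at the other
  places of `T`, is the pure tensor with the DOUBLE COSET functions of `g` at these places.

FALSITY CHECKS (helper563).  (PT.1) `c` is independent of `T ⊇ T₀`: with `ν_v(U(m v)) = 1`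
(`= ν_v(GL₂(𝒪_v))` outside `T₀`) and `μ^T(∏_{v ∉ T} GL₂(𝒪_v)) = 1` the product measure
`μ_∞ × ∏_{v ∈ T} ν_v × μ^T` does not depend on `T`.  A function with `T6.HasFinSupp` and
`T6.IsBiInv` for `U(m v)` has compact support and is locally constant;
`∫ f(y) g(y⁻¹ a) dν = ν(U) ∑_{h ∈ Γ/U} f(h) g(h⁻¹ a)` needs `f` right and `g` left invariant.
If `OutT305 T h` fails both sides vanish.  `TotCplx K`: `infGL305 w` is onto `GL₂(ℂ)` at every
infinite place (at a real place the local group is `GL₂(ℝ)`: PT.2).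
(PT.3) No type, no invariance is used.  (PT.4) `OutT305 T (b⁻¹ y) ↔ OutT305 T y` because
`OutT305 T b` (a group).  (PT.5) The pure tensor is left invariant under `U(𝔑₀)` (unit
components at `S₀`, the hypothesis at `T ∖ S₀`, `GL₂(𝒪_v)` outside `T`, trivial at infinity);
the cosets `u g U` correspond to the families of local cosets `u_v g_v U_v`, `v ∈ S₀`
(`IsLevelOf893`: `U(𝔑₀)_v = T6.InU (n₀ v)`); `g_v = 1` is allowed (`dblFn = unitFn`).
-/

set_option autoImplicit false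

open AutomorphicForm IsDedekindDomain NumberField MeasureTheory
open scoped ComplexConjugate

noncomputable section

namespace Fermat.Agent.LT.T7.PT563

open Fermat.Agent.LT.H556 Fermat.Agent.LT.H556.A0 Fermat.Agent.LT.T7
  Fermat.Agent.LT.T7.H305 Fermat.Agent.LT.T7.H893 Fermat.Agent.LT.T7.MQ298

attribute [local instance] Fermat.Agent.LT.T5.instMeasurableSpaceG

section OneField

variable (K : Type) [Field K] [NumberField K]

/-- **LEAF PT.1 = CONV-PURE (totally complex field).**  See the header. -/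
def ConvPureC563 : Prop :=
  TotCplx K →
  ∀ μ : Measure (G K), μ.IsHaarMeasure →
  ∀ μc : @Measure (GL (Fin 2) ℂ) (borel _), @Measure.IsHaarMeasure _ _ _ (borel _) μc →
  ∀ (T₀ : Finset (HeightOneSpectrum (𝓞 K))) (m : HeightOneSpectrum (𝓞 K) → ℕ),
    (∀ v : HeightOneSpectrum (𝓞 K), v ∉ T₀ → m v = 0) →
    ∃ c : ℝ, 0 < c ∧
      ∀ T : Finset (HeightOneSpectrum (𝓞 K)), T₀ ⊆ T →
      ∀ (f₀ g₀ χ₀ : ∀ v : HeightOneSpectrum (𝓞 K), GL (Fin 2) (v.adicCompletion K) → ℂ)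
        (F₁ F₂ : InfinitePlace K → GL (Fin 2) ℂ → ℂ),
        (∀ v ∈ T, T6.IsBiInv (T6.InU (m v)) (f₀ v) ∧ T6.HasFinSupp (T6.InU (m v)) (f₀ v)) →
        (∀ v ∈ T, T6.IsBiInv (T6.InU (m v)) (g₀ v) ∧ T6.HasFinSupp (T6.InU (m v)) (g₀ v)) →
        (∀ v ∈ T, T6.IsConv (T6.InU (m v)) (f₀ v) (g₀ v) (χ₀ v)) →
        (∀ w : InfinitePlace K, Continuous (F₁ w) ∧ HasCompactSupport (F₁ w)) →
        (∀ w : InfinitePlace K, Continuous (F₂ w) ∧ HasCompactSupport (F₂ w)) →
        ∀ h : G K, T5.conv μ (pure305 T f₀ F₁) (pure305 T g₀ F₂) h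
          = (c : ℂ) * pure305 T χ₀ (fun w => @T6.convInt _ _ (borel _) μc (F₁ w) (F₂ w)) h

/-- **LEAF PT.3 = CONV-AVG (analysis).**  See the header. -/
def ConvAvgC563 : Prop :=
  ∀ μ : Measure (G K), μ.IsHaarMeasure →
  ∀ (Ω₁ : Type) (_ : TopologicalSpace Ω₁) (_ : CompactSpace Ω₁) (_ : T2Space Ω₁)
    (_ : SecondCountableTopology Ω₁) (_ : MeasurableSpace Ω₁) (_ : BorelSpace Ω₁)
    (ν₁ : Measure Ω₁) (_ : IsFiniteMeasure ν₁)
    (Ω₂ : Type) (_ : TopologicalSpace Ω₂) (_ : CompactSpace Ω₂) (_ : T2Space Ω₂)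
    (_ : SecondCountableTopology Ω₂) (_ : MeasurableSpace Ω₂) (_ : BorelSpace Ω₂)
    (ν₂ : Measure Ω₂) (_ : IsFiniteMeasure ν₂)
    (p : Ω₁ → G K → ℂ) (q : Ω₂ → G K → ℂ),
    Continuous (fun x : Ω₁ × G K => p x.1 x.2) →
    Continuous (fun x : Ω₂ × G K => q x.1 x.2) →
    (∃ C : Set (G K), IsCompact C ∧ ∀ (a : Ω₁) (h : G K), p a h ≠ 0 → h ∈ C) →
    (∃ C : Set (G K), IsCompact C ∧ ∀ (b : Ω₂) (h : G K), q b h ≠ 0 → h ∈ C) →
    (∀ h : G K, T5.conv μ (fun y => ∫ a, p a y ∂ν₁) (fun y => ∫ b, q b y ∂ν₂) h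
        = ∫ x : Ω₁ × Ω₂, T5.conv μ (p x.1) (q x.2) h ∂(ν₁.prod ν₂)) ∧
      Continuous (fun x : (Ω₁ × Ω₂) × G K => T5.conv μ (p x.1.1) (q x.1.2) x.2) ∧
      ∃ C : Set (G K), IsCompact C ∧
        ∀ (x : Ω₁ × Ω₂) (h : G K), T5.conv μ (p x.1) (q x.2) h ≠ 0 → h ∈ C

/-- **LEAF PT.4 = TR-PURE.**  See the header. -/
def TrPureC563 : Prop :=
  ∀ (T : Finset (HeightOneSpectrum (𝓞 K))) (b : G K), OutT305 T b →
  ∀ (f₀ : ∀ v : HeightOneSpectrum (𝓞 K), GL (Fin 2) (v.adicCompletion K) → ℂ)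
    (F : InfinitePlace K → GL (Fin 2) ℂ → ℂ) (y : G K),
    pure305 T f₀ F (b⁻¹ * y)
      = pure305 T (fun v x => f₀ v ((finGL305 v b)⁻¹ * x))
          (fun w x => F w ((infGL305 w b)⁻¹ * x)) y

open Classical in
/-- **LEAF PT.5 = LSUM-DBL.**  See the header. -/
def LsumDblC563 : Prop :=
  ∀ (𝔑₀ : Ideal (𝓞 K)) (n₀ : HeightOneSpectrum (𝓞 K) → ℕ), 𝔑₀ ≠ ⊥ → IsLevelOf893 𝔑₀ n₀ →
  ∀ (g : G K) (S₀ : Finset (HeightOneSpectrum (𝓞 K))),
    (∀ w : InfinitePlace K, TrivAtInf w g) →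
    (∀ v : HeightOneSpectrum (𝓞 K), v ∉ S₀ → TrivAtFin v g) →
  ∀ Hg : Finset (G K), IsDblCosetSystem 𝔑₀ g Hg →
  ∀ T : Finset (HeightOneSpectrum (𝓞 K)), S₀ ⊆ T →
  ∀ (f₀ : ∀ v : HeightOneSpectrum (𝓞 K), GL (Fin 2) (v.adicCompletion K) → ℂ)
    (F : InfinitePlace K → GL (Fin 2) ℂ → ℂ),
    (∀ v ∈ S₀, f₀ v = unitFn893 (n₀ v)) →
    (∀ v ∈ T, v ∉ S₀ → ∀ u x : GL (Fin 2) (v.adicCompletion K),
      T6.InU (n₀ v) u → f₀ v (u * x) = f₀ v x) →
    ∀ y : G K, lsum Hg (pure305 T f₀ F) y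
      = pure305 T (fun v => if v ∈ S₀ then dblFn893 (n₀ v) (finGL305 v g) else f₀ v) F y

end OneField

/-- **LEAF PT.2 = CONV-PURE over `ℚ`.**  See the header. -/
def ConvPureQC563 : Prop :=
  ∀ μ : Measure (G ℚ), μ.IsHaarMeasure →
  ∀ μr : @Measure (GL (Fin 2) ℝ) (borel _), @Measure.IsHaarMeasure _ _ _ (borel _) μr →
  ∀ (T₀ : Finset (HeightOneSpectrum (𝓞 ℚ))) (m : HeightOneSpectrum (𝓞 ℚ) → ℕ),
    (∀ v : HeightOneSpectrum (𝓞 ℚ), v ∉ T₀ → m v = 0) →
    ∃ c : ℝ, 0 < c ∧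
      ∀ T : Finset (HeightOneSpectrum (𝓞 ℚ)), T₀ ⊆ T →
      ∀ (f₀ g₀ χ₀ : ∀ v : HeightOneSpectrum (𝓞 ℚ), GL (Fin 2) (v.adicCompletion ℚ) → ℂ)
        (F₁ F₂ : GL (Fin 2) ℝ → ℂ),
        (∀ v ∈ T, T6.IsBiInv (T6.InU (m v)) (f₀ v) ∧ T6.HasFinSupp (T6.InU (m v)) (f₀ v)) →
        (∀ v ∈ T, T6.IsBiInv (T6.InU (m v)) (g₀ v) ∧ T6.HasFinSupp (T6.InU (m v)) (g₀ v)) →
        (∀ v ∈ T, T6.IsConv (T6.InU (m v)) (f₀ v) (g₀ v) (χ₀ v)) →
        Continuous F₁ → HasCompactSupport F₁ → Continuous F₂ → HasCompactSupport F₂ →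
        ∀ h : G ℚ, T5.conv μ (pureQ298 T f₀ F₁) (pureQ298 T g₀ F₂) h
          = (c : ℂ) * pureQ298 T χ₀ (@T6.convInt _ _ (borel _) μr F₁ F₂) h

/-- **LEAF PT.4Q = TR-PURE over `ℚ`.**  See the header. -/
def TrPureQC563 : Prop :=
  ∀ (T : Finset (HeightOneSpectrum (𝓞 ℚ))) (b : G ℚ), OutT305 T b →
  ∀ (f₀ : ∀ v : HeightOneSpectrum (𝓞 ℚ), GL (Fin 2) (v.adicCompletion ℚ) → ℂ)
    (F : GL (Fin 2) ℝ → ℂ) (y : G ℚ),
    pureQ298 T f₀ F (b⁻¹ * y)
      = pureQ298 T (fun v x => f₀ v ((finGL305 v b)⁻¹ * x))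
          (fun x => F ((reGLQ298 b)⁻¹ * x)) y

/-! ## Appendix: the equation lemmas of the definitions of this file are realised HERE -/

theorem eqns_realised_ptSpec563 : True := by
  have _h0_0 := @ConvPureC563.eq_1
  have _h0_1 := @ConvPureC563.eq_def
  have _h0_2 := @ConvPureC563.eq_unfold
  have _h1_0 := @ConvAvgC563.eq_1
  have _h1_1 := @ConvAvgC563.eq_def
  have _h1_2 := @ConvAvgC563.eq_unfold
  have _h2_0 := @TrPureC563.eq_1
  have _h2_1 := @TrPureC563.eq_def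
  have _h2_2 := @TrPureC563.eq_unfold
  have _h3_0 := @LsumDblC563.eq_1
  have _h3_1 := @LsumDblC563.eq_def
  have _h3_2 := @LsumDblC563.eq_unfold
  have _h4_0 := @ConvPureQC563.eq_1
  have _h4_1 := @ConvPureQC563.eq_def
  have _h4_2 := @ConvPureQC563.eq_unfold
  have _h5_0 := @TrPureQC563.eq_1
  have _h5_1 := @TrPureQC563.eq_def
  have _h5_2 := @TrPureQC563.eq_unfold
  trivial

end Fermat.Agent.LT.T7.PT563

end
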