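import Mathlib
import Fermat.Agent.LT.T7.H563.ProdMtQAll
import Fermat.Agent.LT.T7.H301.LevelUniq
import Fermat.Agent.LT.T7.H627.LevelLeaves
import Fermat.Agent.LT.T7.H570.UnramQ
import Fermat.Agent.LT.T7.H60.SphHypQTop
import Fermat.Agent.LT.T7.H60.SphInertQ
import Fermat.Agent.LT.T7.H315.SphInv
import Fermat.Agent.LT.T7.H724.ConvFam
import Fermat.Agent.LT.T7.H644.ConvSmall
import Fermat.Agent.LT.T7.H409.RegOrbQ
import Fermat.Agent.LT.T7.H100.ArchProdQ

/-!
# Row LT, tower T7, node T7.L2Q.1.H2b `CQ801.ProdMtQC801` (row 2683, helper563): INTEGRATION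

OFF-MAIN.  No hole, nothing assumed.  ADDITIVE.  The closed leaves of the three cuts are
plugged (byte-identical copies of the files of their provers):

* `H893.LevelUniqC893` : helper301 (`T7/H301/LevelUniq.lean`);
* `H893.LevelAtC893 ℚ F` : helper627 (`T7/H627/LevelLeaves.lean`);
* `UnramQC563 F` : helper570 (`T7/H570/UnramQ.lean`);
* `SphHypQC563 F` : the cut of helper60 (`T7/H60/SphHypQTop.lean`), `SphInertQC60` (helper60),
  `H893.SphInvC893` (helper315);
* `P51.ConvFamC51 F` : helper724 (`T7/H724/ConvFam.lean`);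
* `P51.LocConvExC51`, `P51.UnitConvC51`, `P51.UnitRegC51`, `P51.OverFinC51 ℚ F`,
  `P51.BelowUniqC51 ℚ F`, `P51.BelowExC51 ℚ F` : helper644 (`T7/H644/ConvSmall.lean`);
* `RegOrbQC563 F` : helper409 (`T7/H409/RegOrbQ.lean`);
* `ArchProdQC563 F` : helper100 (`T7/H100/ArchProdQ.lean`, on `T3.H830.archProdN830`).

    prodMtQC801_of_open563 : T6.T6Out → H60.SphSplitQC60 F → OpAvgQC563 F → ConvFamQC563
        → TestSmulQC563 → RegAQC563 F → RegOpQC563 F → SplitOrbQC563 F → SphProdQC563 F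
        → ∀ κ nowhere zero, CQ801.ProdMtQC801 F κ                             (VERBATIM)
-/

set_option autoImplicit false

open AutomorphicForm IsDedekindDomain NumberField MeasureTheory
open scoped ComplexConjugate

noncomputable section

namespace Fermat.Agent.LT.T7.PQ563

open Fermat.Agent.LT.H556 Fermat.Agent.LT.H556.A0 Fermat.Agent.LT.T7 Fermat.Agent.LT.T7.H305
  Fermat.Agent.LT.T7.L2Q Fermat.Agent.LT.T7.H893 Fermat.Agent.LT.T7.H962
  Fermat.Agent.LT.T7.H732 Fermat.Agent.LT.T7.MQ298 Fermat.Agent.LT.T7.CQ801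

attribute [local instance] Fermat.Agent.LT.T5.instMeasurableSpaceG

variable {F : Type} [Field F] [NumberField F]

/-- **THE NODE `CQ801.ProdMtQC801` from its OPEN leaves** (the closed leaves are plugged). -/
theorem prodMtQC801_of_open563 (ht6 : T6.T6Out) (hSplit : T7.H60.SphSplitQC60 F)
    (hOp : OpAvgQC563 F) (hFamD : ConvFamQC563) (hTS : TestSmulQC563)
    (hRA : RegAQC563 F) (hRO : RegOpQC563 F) (h5 : SplitOrbQC563 F) (h6 : SphProdQC563 F)
    (κ : KapFnQ801 F) (hκ : ∀ D μr μc T₀ n m, κ D μr μc T₀ n m ≠ 0) : ProdMtQC801 F κ :=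
  prodMtQC801_of_all563 (T7.H301.levelUniqC301 ℚ) (T7.H301.levelUniqC301 F)
    (T7.H627.levelAtC627 ℚ F) (T7.H570UQ.unramQC570 F)
    (T7.H60.sphHypQC_of60 ht6 (T7.H315.sphInvC315 ℚ) (T7.H315.sphInvC315 F)
      (T7.H60.sphInertQC60 F) hSplit)
    hOp (T7.H724.convFamC724 (F := F)) hFamD hTS T7.H644.locConvExC644 T7.H644.unitConvC644
    T7.H644.unitRegC644 hRA hRO (T7.H644.overFinC644 (K := ℚ) (K' := F))
    (T7.H644.belowUniqC644 (K := ℚ) (K' := F)) (T7.H644.belowExC644 (K := ℚ) (K' := F))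
    (T7.H409.regOrbQC409 F) h5 h6 (T7.H100.archProdQC100 F) κ hκ

end Fermat.Agent.LT.T7.PQ563

end
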