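import Mathlib
import Fermat.Agent.LT.T7.H563.ProdMtQClosed
import Fermat.Agent.LT.T7.H60.SphHypQClosed
import Fermat.Agent.LT.T7.H627.ConvFamQ
import Fermat.Agent.LT.T7.H78.SplitOrbQ
import Fermat.Agent.LT.T7.H575.RegOpQ
import Fermat.Agent.LT.T7.H777.SphProdQ

/-!
# Row LT, tower T7, node T7.L2Q.1.H2b `CQ801.ProdMtQC801` (row 2683, helper563): INTEGRATION v2

OFF-MAIN.  No hole, nothing assumed.  ADDITIVE (v1 = `ProdMtQClosed.lean`, unchanged).  Plugged
in addition to v1 (byte-identical copies of the files of their provers):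

* `SphHypQC563 F` from `T6.T6Out` : helper60 (`T7/H60/SphHypQClosed.lean`, with `SphSplitQ`);
* `ConvFamQC563`, `TestSmulQC563` : helper627 (`T7/H627/ConvFamQ.lean`);
* `SplitOrbQC563 F` : helper78 (`T7/H78/SplitOrbQ.lean`, port of helper321 `splitOrbC321`);
* `RegOpQC563 F` : helper575 (`T7/H575/RegOpQ.lean`);
* `SphProdQC563 F` : helper777 (`T7/H777/SphProdQ.lean`).

    prodMtQC801_of_open563b : T6.T6Out → OpAvgQC563 F → RegAQC563 F
        → ∀ κ nowhere zero, CQ801.ProdMtQC801 F κ                             (VERBATIM)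
-/

set_option autoImplicit false

open AutomorphicForm IsDedekindDomain NumberField MeasureTheory
open scoped ComplexConjugate

noncomputable section

namespace Fermat.Agent.LT.T7.PQ563

open Fermat.Agent.LT.H556 Fermat.Agent.LT.H556.A0 Fermat.Agent.LT.T7 Fermat.Agent.LT.T7.H305
  Fermat.Agent.LT.T7.L2Q Fermat.Agent.LT.T7.H893 Fermat.Agent.LT.T7.H962
  Fermat.Agent.LT.T7.H732 Fermat.Agent.LT.T7.MQ298 Fermat.Agent.LT.T7.CQ801

attribute [local instance] Fermat.Agent.LT.T5.instMeasurableSpaceG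

variable {F : Type} [Field F] [NumberField F]

/-- **THE NODE `CQ801.ProdMtQC801` from its OPEN leaves, v2** (the closed leaves are plugged). -/
theorem prodMtQC801_of_open563b (ht6 : T6.T6Out) (hOp : OpAvgQC563 F) (hRA : RegAQC563 F)
    (κ : KapFnQ801 F) (hκ : ∀ D μr μc T₀ n m, κ D μr μc T₀ n m ≠ 0) : ProdMtQC801 F κ :=
  prodMtQC801_of_all563 (T7.H301.levelUniqC301 ℚ) (T7.H301.levelUniqC301 F)
    (T7.H627.levelAtC627 ℚ F) (T7.H570UQ.unramQC570 F)
    (T7.H60.sphHypQC_closed60 F ht6)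
    hOp (T7.H724.convFamC724 (F := F)) T7.H627.convFamQC627 T7.H627.testSmulQC627
    T7.H644.locConvExC644 T7.H644.unitConvC644
    T7.H644.unitRegC644 hRA (T7.H575.regOpQC575 (F := F))
    (T7.H644.overFinC644 (K := ℚ) (K' := F))
    (T7.H644.belowUniqC644 (K := ℚ) (K' := F)) (T7.H644.belowExC644 (K := ℚ) (K' := F))
    (T7.H409.regOrbQC409 F) (T7.H78.splitOrbQC78 (F := F)) (T7.H777.sphProdQC777 F)
    (T7.H100.archProdQC100 F) κ hκ

end Fermat.Agent.LT.T7.PQ563

end
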