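import Mathlib
import Fermat.Agent.LT.T7.H563.ConvAvgQSpec
import Fermat.Agent.LT.T7.H627.LevelLeaves
import Fermat.Agent.LT.T7.H315.SphInv
import Fermat.Agent.LT.T7.H644.ConvSmall

/-!
# Row LT, tower T7, leaf T7.L2Q.1.H2b.4.G2.5 `PQ563.RegAQC563` (registry row 3055): SPARE proof
# (helper563; port over `ℚ` of `H869.regAC_of869` of helper869)

OFF-MAIN.  No hole, nothing assumed.  ADDITIVE.

    regAQC_h563 (F) : PQ563.RegAQC563 F                              (VERBATIM, UNCONDITIONAL)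

The components of the shape `LocAQ801 c` are the unit functions at the places of the level
(`unitRegC644`), spherical functions outside the level, where the exponents of the levels
vanish (`levelAtC627`, `sphInvC315`), and test functions at infinity (`ArchOkQ801`).
-/

set_option autoImplicit false

open AutomorphicForm IsDedekindDomain NumberField MeasureTheory

noncomputable section

namespace Fermat.Agent.LT.T7.PQ563

open Fermat.Agent.LT.H556 Fermat.Agent.LT.H556.A0 Fermat.Agent.LT.T7 Fermat.Agent.LT.T7.H305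
  Fermat.Agent.LT.T7.L2Q Fermat.Agent.LT.T7.H893 Fermat.Agent.LT.T7.H962
  Fermat.Agent.LT.T7.H732 Fermat.Agent.LT.T7.MQ298 Fermat.Agent.LT.T7.CQ801

/-- **`RegAQC563`, closed.** -/
theorem regAQC_h563 (F : Type) [Field F] [NumberField F] : RegAQC563 F := by
  intro Φ B g 𝔫 μr μc T₀ n n₀ m hctx c T φ₀ Φ' f₀ F0 F1 _hT hA
  obtain ⟨hunit_dn, hunit_up, hsph, harch⟩ := hA
  have hlev := T7.H627.levelAtC627 ℚ F 𝔫 T₀ n m hctx.mem_T₀ hctx.lev_m hctx.lev_n
  refine ⟨?_, ?_, ?_, ?_⟩
  · intro v hv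
    by_cases hv0 : v ∈ T₀
    · refine ⟨fun w hw => ?_, ?_⟩
      · rw [hunit_up v hv0 w hw]
        exact T7.H644.unitRegC644 (w.adicCompletion F) (n w)
      · rw [hunit_dn v hv0]
        exact T7.H644.unitRegC644 (v.adicCompletion ℚ) (m v)
    · obtain ⟨A, Av, hf, hφ, -, -⟩ := hsph v hv hv0
      refine ⟨fun w hw => ?_, ?_⟩
      · rw [hlev.2 v w hv0 hw]
        exact T7.H315.sphInvC315 F w (φ₀ w) (A w) (hφ w hw)
      · rw [hlev.1 v hv0]
        exact T7.H315.sphInvC315 ℚ v (f₀ v) Av hf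
  · intro w
    exact ⟨(harch.1 w).cont, (harch.1 w).supp⟩
  · exact ⟨harch.2.1.cont, harch.2.1.supp⟩
  · exact ⟨harch.2.2.1.cont, harch.2.2.1.supp⟩

end Fermat.Agent.LT.T7.PQ563

end
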