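import Mathlib
import Fermat.Agent.LT.T7.H563.ProdMtQClosed2
import Fermat.Agent.LT.T7.H563.RegAQ

/-!
# Row LT, tower T7, node T7.L2Q.1.H2b `CQ801.ProdMtQC801` (row 2683, helper563): INTEGRATION v3

OFF-MAIN.  No hole, nothing assumed.  ADDITIVE (v1, v2 unchanged).  Plugged in addition to v2:
`RegAQC563 F` (`T7/H563/RegAQ.lean`, `regAQC_h563`, port of helper869).

    prodMtQC801_of_open563c : T6.T6Out → OpAvgQC563 F
        → ∀ κ nowhere zero, CQ801.ProdMtQC801 F κ                             (VERBATIM)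
-/

set_option autoImplicit false

open AutomorphicForm IsDedekindDomain NumberField MeasureTheory
open scoped ComplexConjugate

noncomputable section

namespace Fermat.Agent.LT.T7.PQ563

open Fermat.Agent.LT.H556 Fermat.Agent.LT.H556.A0 Fermat.Agent.LT.T7 Fermat.Agent.LT.T7.H305
  Fermat.Agent.LT.T7.L2Q Fermat.Agent.LT.T7.H893 Fermat.Agent.LT.T7.H962
  Fermat.Agent.LT.T7.H732 Fermat.Agent.LT.T7.MQ298 Fermat.Agent.LT.T7.CQ801

attribute [local instance] Fermat.Agent.LT.T5.instMeasurableSpaceG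

variable {F : Type} [Field F] [NumberField F]

/-- **THE NODE `CQ801.ProdMtQC801` from its OPEN leaf, v3** (the closed leaves are plugged). -/
theorem prodMtQC801_of_open563c (ht6 : T6.T6Out) (hOp : OpAvgQC563 F)
    (κ : KapFnQ801 F) (hκ : ∀ D μr μc T₀ n m, κ D μr μc T₀ n m ≠ 0) : ProdMtQC801 F κ :=
  prodMtQC801_of_open563b ht6 hOp (regAQC_h563 F) κ hκ

end Fermat.Agent.LT.T7.PQ563

end
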