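import Mathlib
import Fermat.Agent.LT.T7.H563.PTSpec

/-!
# Row LT, tower T7, node T7.L2Q.1.H2.4 `CQ57.ProdMtQC57` (registry row 2683, owner helper563):
# THE CALCULUS OF PURE TENSORS -- general leaves, part 2 (the regular member), Spec

OFF-MAIN.  Definitions and frozen Props only.  No hole, nothing assumed.  ADDITIVE.

* `iwRegFn563 q k m` : the LOCAL function `q^{-m/2} 1_{ϖ^k I diag(ϖ^m, 1) I}` on `GL₂(k)`
  (`I` the Iwahori subgroup `H893.InIw893`).
* **PT.6 `RegLPureC563 K`**, **`RegLPureQC563`**: the regular member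
  `regL w z H k m = ltr (z ^ k) ∘ (iwL w H)^[m]` of a pure tensor whose component at `w ∈ T` is
  the Iwahori function `iwFn893` is the pure tensor with the component `iwRegFn563 (N w) k m`
  at `w` (the other components unchanged).

FALSITY CHECKS (helper563).  `I diag(ϖ,1) I = ⊔_{r mod ϖ} [[ϖ, r],[0,1]] I` (`q` cosets,
`H340.exists_iwCosetSystem340`), the products `h₁ ⋯ h_m I`, `h_i ∈ H`, are `q^m` DIFFERENT
cosets with union `I diag(ϖ^m,1) I` (`[[ϖ^m, r],[0,1]] I`, `r mod ϖ^m`), for EVERY coset system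
`H` (the sum does not depend on the system: `H340.iwSum_indep340`); so
`(iwL w H)^[m] 1_I = q^{-m/2} 1_{I diag(ϖ^m,1) I}` at `w`.  `ltr (z ^ k)`: `y ↦ φ(z^{-k} y)`,
`z_w = diag(ϖ', ϖ')`, `|ϖ'| = exp(-1)`: the support is multiplied by the scalar `ϖ'^k`,
`|ϖ'^k| = exp(-k)`, `k ∈ ℤ`.  `m = 0`, `k = 0`: `iwRegFn563 q 0 0 = iwFn893` (`c`, `d` units,
`d • a diag(c,1) b ∈ I`).  The elements of `H` and `z` are supported at `w` (`IsLocalAtFin`),
so `OutT305 T` and the other components do not change (`w ∈ T`).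
-/

set_option autoImplicit false

open AutomorphicForm IsDedekindDomain NumberField MeasureTheory
open scoped ComplexConjugate

noncomputable section

namespace Fermat.Agent.LT.T7.PT563

open Fermat.Agent.LT.H556 Fermat.Agent.LT.H556.A0 Fermat.Agent.LT.T7
  Fermat.Agent.LT.T7.H305 Fermat.Agent.LT.T7.H893 Fermat.Agent.LT.T7.MQ298

attribute [local instance] Fermat.Agent.LT.T5.instMeasurableSpaceG

section Local

variable {k : Type} [Field k] [Valued k T6.Γ₀]

open Classical in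
/-- The local function `q^{-m/2} 1_{ϖ^e I diag(ϖ^m, 1) I}` on `GL₂(k)`. -/
def iwRegFn563 (q : ℕ) (e : ℤ) (m : ℕ) : GL (Fin 2) k → ℂ := fun x =>
  if ∃ (a b : GL (Fin 2) k) (c d : k), InIw893 a ∧ InIw893 b ∧
      Valued.v c = WithZero.exp (-(m : ℤ)) ∧ Valued.v d = WithZero.exp (-e) ∧
      (x : Matrix (Fin 2) (Fin 2) k)
        = d • ((a : Matrix (Fin 2) (Fin 2) k) * !![c, 0; 0, 1] * (b : Matrix (Fin 2) (Fin 2) k))
  then (((Real.sqrt (q : ℝ) : ℝ) : ℂ)⁻¹) ^ m else 0

end Local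

section OneField

variable (K : Type) [Field K] [NumberField K]

open Classical in
/-- **LEAF PT.6 = REGL-PURE.**  See the header. -/
def RegLPureC563 : Prop :=
  ∀ (w : HeightOneSpectrum (𝓞 K)) (z : G K) (H : Finset (G K)),
    IsIwCosetSystem w H → IsScalarUniformizerAt w z →
  ∀ (T : Finset (HeightOneSpectrum (𝓞 K))), w ∈ T →
  ∀ (f₀ : ∀ v : HeightOneSpectrum (𝓞 K), GL (Fin 2) (v.adicCompletion K) → ℂ)
    (F : InfinitePlace K → GL (Fin 2) ℂ → ℂ), f₀ w = iwFn893 →
  ∀ (k : ℤ) (m : ℕ) (y : G K),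
    regL w z H k m (pure305 T f₀ F) y
      = pure305 T (Function.update f₀ w (iwRegFn563 (Ideal.absNorm w.asIdeal) k m)) F y

end OneField

open Classical in
/-- **LEAF PT.6Q = REGL-PURE over `ℚ`.**  See the header. -/
def RegLPureQC563 : Prop :=
  ∀ (w : HeightOneSpectrum (𝓞 ℚ)) (z : G ℚ) (H : Finset (G ℚ)),
    IsIwCosetSystem w H → IsScalarUniformizerAt w z →
  ∀ (T : Finset (HeightOneSpectrum (𝓞 ℚ))), w ∈ T →
  ∀ (f₀ : ∀ v : HeightOneSpectrum (𝓞 ℚ), GL (Fin 2) (v.adicCompletion ℚ) → ℂ)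
    (F : GL (Fin 2) ℝ → ℂ), f₀ w = iwFn893 →
  ∀ (k : ℤ) (m : ℕ) (y : G ℚ),
    regL w z H k m (pureQ298 T f₀ F) y
      = pureQ298 T (Function.update f₀ w (iwRegFn563 (Ideal.absNorm w.asIdeal) k m)) F y

/-! ## Appendix: the equation lemmas of the definitions of this file are realised HERE -/

theorem eqns_realised_ptSpec2_563 : True := by
  have _h0_0 := @iwRegFn563.eq_1
  have _h0_1 := @iwRegFn563.eq_def
  have _h0_2 := @iwRegFn563.eq_unfold
  have _h1_0 := @RegLPureC563.eq_1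
  have _h1_1 := @RegLPureC563.eq_def
  have _h1_2 := @RegLPureC563.eq_unfold
  have _h2_0 := @RegLPureQC563.eq_1
  have _h2_1 := @RegLPureQC563.eq_def
  have _h2_2 := @RegLPureQC563.eq_unfold
  trivial

end Fermat.Agent.LT.T7.PT563

end
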