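import Mathlib
import Fermat.Agent.LT.T7.H563.ProdMtQClosed3
import Fermat.Agent.LT.T7.H949.OpAvgQ

/-!
# Row LT, tower T7, node T7.L2Q.1.H2b `CQ801.ProdMtQC801` (row 2683, helper563): CLOSED

OFF-MAIN.  No hole, nothing assumed.  ADDITIVE (v1, v2, v3 unchanged).  Plugged in addition to
v3: `OpAvgQC563 F` (helper949, `T7/H949/OpAvgQ.lean`, `opAvgQC949`).

    prodMtQC801_closed563 : T6.T6Out → ∀ κ nowhere zero, CQ801.ProdMtQC801 F κ   (VERBATIM)

ALL 21 leaves of the three cuts (`ProdMtQSpec`, `ProdShapeQSpec`, `ConvAvgQSpec`) are plugged;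
the only hypothesis is the output `T6.T6Out` of the tower T6 (closed at the master:
`T6.top_closed`), which enters through `SphHypQC563` (fundamental lemma, Satake) only.

| leaf | prover | file |
|---|---|---|
| `H893.LevelUniqC893 ℚ`, `F` | helper301 | `T7/H301/LevelUniq.lean` |
| `H893.LevelAtC893 ℚ F` | helper627 | `T7/H627/LevelLeaves.lean` |
| `UnramQC563 F` | helper570 | `T7/H570/UnramQ.lean` |
| `SphHypQC563 F` (from `T6Out`) | helper60 | `T7/H60/SphHypQClosed.lean` |
| `OpAvgQC563 F` | helper949 | `T7/H949/OpAvgQ.lean` |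
| `P51.ConvFamC51 F` | helper724 | `T7/H724/ConvFam.lean` |
| `ConvFamQC563`, `TestSmulQC563` | helper627 | `T7/H627/ConvFamQ.lean` |
| `P51.LocConvExC51`, `UnitConvC51`, `UnitRegC51`, `OverFinC51`, `BelowUniqC51`, `BelowExC51` | helper644 | `T7/H644/ConvSmall.lean` |
| `RegAQC563 F` | helper563 (port of helper869) | `T7/H563/RegAQ.lean` |
| `RegOpQC563 F` | helper575 | `T7/H575/RegOpQ.lean` |
| `RegOrbQC563 F` | helper409 | `T7/H409/RegOrbQ.lean` |
| `SplitOrbQC563 F` | helper78 (port of helper321) | `T7/H78/SplitOrbQ.lean` |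
| `SphProdQC563 F` | helper777 | `T7/H777/SphProdQ.lean` |
| `ArchProdQC563 F` | helper100 (on helper830 `archProdN830`) | `T7/H100/ArchProdQ.lean` |
-/

set_option autoImplicit false

open AutomorphicForm IsDedekindDomain NumberField MeasureTheory
open scoped ComplexConjugate

noncomputable section

namespace Fermat.Agent.LT.T7.PQ563

open Fermat.Agent.LT.H556 Fermat.Agent.LT.H556.A0 Fermat.Agent.LT.T7 Fermat.Agent.LT.T7.H305
  Fermat.Agent.LT.T7.L2Q Fermat.Agent.LT.T7.H893 Fermat.Agent.LT.T7.H962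
  Fermat.Agent.LT.T7.H732 Fermat.Agent.LT.T7.MQ298 Fermat.Agent.LT.T7.CQ801

attribute [local instance] Fermat.Agent.LT.T5.instMeasurableSpaceG

/-- **THE NODE `CQ801.ProdMtQC801`, CLOSED** (from the output of the tower T6). -/
theorem prodMtQC801_closed563 (F : Type) [Field F] [NumberField F] (ht6 : T6.T6Out)
    (κ : KapFnQ801 F) (hκ : ∀ D μr μc T₀ n m, κ D μr μc T₀ n m ≠ 0) : ProdMtQC801 F κ :=
  prodMtQC801_of_open563c ht6 (T7.H949.opAvgQC949 F) κ hκ

end Fermat.Agent.LT.T7.PQ563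

end
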