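import Mathlib

/-!
# Row LT, tower T7, node T7.L2.1, leaf PROJ.8 = TORUS-MEAN (registry row 2145) — Mathlib core

Seat helper563, OFF-MAIN.  Mathlib only.  For a basis `b` of `ℝ^ι` the fundamental parallelepiped
`ZSpan.fundamentalDomain b` is measurable, bounded, of positive volume, and the integral over it
of every function with the periods `b i` is invariant under translation (no hypothesis on the
function besides the periodicity: both sides are Bochner integrals over two fundamental domains
of the lattice `span ℤ (range b)`).
-/

set_option autoImplicit false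

open MeasureTheory

namespace Fermat.Agent.LT.T7.H563

/-- Periodicity under a basis gives invariance under the lattice spanned by it. -/
theorem periodic_span563 {ι : Type} (b : Module.Basis ι ℝ (ι → ℝ)) (f : (ι → ℝ) → ℂ)
    (hf : ∀ (i : ι) (t : ι → ℝ), f (t + b i) = f t) :
    ∀ g ∈ Submodule.span ℤ (Set.range b), ∀ x : ι → ℝ, f (g + x) = f x := by
  intro g hg
  induction hg using Submodule.span_induction with
  | mem y hy =>
    obtain ⟨i, rfl⟩ := hy
    intro x
    rw [add_comm]
    exact hf i x
  | zero =>
    intro x
    rw [zero_add]
  | add y z _ _ hy hz =>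
    intro x
    rw [add_assoc, hy, hz]
  | smul n y _ hy =>
    have hneg : ∀ x : ι → ℝ, f (-y + x) = f x := by
      intro x
      have h := hy (-y + x)
      rw [add_neg_cancel_left] at h
      exact h.symm
    have hnat : ∀ (k : ℕ) (x : ι → ℝ), f ((k : ℤ) • y + x) = f x := by
      intro k
      induction k with
      | zero => intro x; simp
      | succ k ih =>
        intro x
        have e : ((k + 1 : ℕ) : ℤ) • y + x = (k : ℤ) • y + (y + x) := by
          push_cast
          rw [add_smul, one_smul, add_assoc]
        rw [e, ih, hy]
    have hnatneg : ∀ (k : ℕ) (x : ι → ℝ), f ((-(k : ℤ)) • y + x) = f x := by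
      intro k
      induction k with
      | zero => intro x; simp
      | succ k ih =>
        intro x
        have e : (-((k + 1 : ℕ) : ℤ)) • y + x = (-(k : ℤ)) • y + (-y + x) := by
          push_cast
          rw [neg_add, add_smul, neg_one_smul, add_assoc]
        rw [e, ih, hneg]
    intro x
    obtain ⟨k, rfl | rfl⟩ := Int.eq_nat_or_neg n
    · exact hnat k x
    · exact hnatneg k x

/-- **TORUS-MEAN, Mathlib form.** -/
theorem torusMean_core563 (ι : Type) [Fintype ι] (b : Module.Basis ι ℝ (ι → ℝ)) :
    ∃ D : Set (ι → ℝ), MeasurableSet D ∧ Bornology.IsBounded D ∧ 0 < volume D ∧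
      ∀ f : (ι → ℝ) → ℂ, (∀ (i : ι) (t : ι → ℝ), f (t + b i) = f t) →
        ∀ s : ι → ℝ, ∫ t in D, f (t + s) = ∫ t in D, f t := by
  classical
  refine ⟨ZSpan.fundamentalDomain b, ZSpan.fundamentalDomain_measurableSet b,
    ZSpan.fundamentalDomain_isBounded b, ?_, ?_⟩
  · exact pos_iff_ne_zero.2 (ZSpan.measure_fundamentalDomain_ne_zero b)
  · intro f hf s
    have hD := ZSpan.isAddFundamentalDomain' b (volume : Measure (ι → ℝ))
    have : Countable (Submodule.span ℤ (Set.range b)).toAddSubgroup := by
      change Countable (Submodule.span ℤ (Set.range b))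
      infer_instance
    have hL : ∀ (g : (Submodule.span ℤ (Set.range b)).toAddSubgroup) (x : ι → ℝ),
        f (g +ᵥ x) = f x := by
      intro g x
      exact periodic_span563 b f hf (g : ι → ℝ) g.2 x
    -- the translated fundamental domain
    have hmp : MeasurePreserving (fun u : ι → ℝ => u + (-s)) volume volume :=
      measurePreserving_add_right volume (-s)
    have hD' : IsAddFundamentalDomain (Submodule.span ℤ (Set.range b)).toAddSubgroup
        ((fun u : ι → ℝ => u + (-s)) ⁻¹' ZSpan.fundamentalDomain b) volume := by
      refine hD.preimage_of_equiv hmp.quasiMeasurePreserving (e := id) Function.bijective_id ?_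
      intro g x
      change ((g : ι → ℝ) + x) + (-s) = (g : ι → ℝ) + (x + (-s))
      rw [add_assoc]
    have hmp2 : MeasurePreserving (fun t : ι → ℝ => t + s) volume volume :=
      measurePreserving_add_right volume s
    have hemb : MeasurableEmbedding (fun t : ι → ℝ => t + s) :=
      measurableEmbedding_addRight s
    have hpre : (fun t : ι → ℝ => t + s) ⁻¹'
        ((fun u : ι → ℝ => u + (-s)) ⁻¹' ZSpan.fundamentalDomain b)
        = ZSpan.fundamentalDomain b := by
      ext t
      simp only [Set.mem_preimage]
      rw [add_neg_cancel_right]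
    have h1 := hmp2.setIntegral_preimage_emb hemb f
      ((fun u : ι → ℝ => u + (-s)) ⁻¹' ZSpan.fundamentalDomain b)
    rw [hpre] at h1
    rw [h1]
    exact hD'.setIntegral_eq hD hL

end Fermat.Agent.LT.T7.H563
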