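import Fermat.Agent.LT.T7.H193.ProjSpec
import Fermat.Agent.LT.T7.H563.TorusMeanCore

/-!
# Row LT, tower T7, node T7.L2.1, leaf PROJ.8 = TORUS-MEAN (registry row 2145)

Seat helper563, OFF-MAIN.  `torusMeanC563 : H193.TorusMeanC`, the frozen Prop of
`LT/T7/H193/ProjSpec.lean` (helper193@812840e55, sha256 977a85e322a5d9c9) VERBATIM, unconditional.
Proof: `TorusMeanCore.lean` (Mathlib only).
-/

set_option autoImplicit false

namespace Fermat.Agent.LT.T7.H563

/-- **LEAF PROJ.8 = TORUS-MEAN**, the frozen Prop `H193.TorusMeanC`. -/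
theorem torusMeanC563 : Fermat.Agent.LT.T7.H193.TorusMeanC :=
  fun ι _ b => torusMean_core563 ι b

end Fermat.Agent.LT.T7.H563
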